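import Fermat.Agent.S52.Fam.Certs
import Fermat.Agent.S52.Fam.SS
import Fermat.Agent.S52.Fam.HomogRel

/-!
# S52, brick (Irr): feeders for the irreducibility step

Notation: `DD := famDh (C c4) (C c6) X (C N)`, `A := famC4h (C c4) (C c6) X (C N)`,
`B := famC6h (C c4) (C c6) X (C N)`, polynomials in the pencil parameter.

Over any commutative ring:
* `natDegree_DD`, `coeff_DD`, `monic_DD` : `DD` is monic of degree `12`;
* `natDegree_A_le`, `coeff_A`, `natDegree_B_le`, `coeff_B` : degree bounds `20`, `30` and the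
  top coefficients `c4`, `c6`;
* `eval_DD`, `eval_A`, `eval_B`, `map_DD`, `map_A`, `map_B` : evaluation and base change;
* `rel_poly` : `A ^ 3 - B ^ 2 = C (c4 ^ 3 - c6 ^ 2) * DD ^ 5`.

Over a field with `30 ≠ 0`, for `c4 ^ 3 - c6 ^ 2 ≠ 0`, `N ≠ 0` (besides `Fam.isCoprime_famDh_famC4h`,
`Fam.separable_famDh`, `Fam.squarefree_famDh` of `Fam/Certs.lean`):
* `isCoprime_A_B`, `isCoprime_DD_B`;
* `DD_not_const_mul_cube`, `const_mul_DD_pow_five_not_cube` : `DD` is not `c * h ^ 3` and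
  `c * DD ^ 5` (`c ≠ 0`) is not a cube.

The last section specialises to integer parameters and `ℚ[X]`.
-/

set_option autoImplicit false
set_option linter.unusedVariables false
set_option linter.unusedSimpArgs false

namespace Fermat.Agent.S52.Irr

open Polynomial
open Fermat.Agent.S52.Fam

section Ring

variable {R : Type*} [CommRing R]

theorem natDegree_DD_le (c4 c6 N : R) :
    (famDh (C c4) (C c6) X (C N) : R[X]).natDegree ≤ 12 := by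
  simp only [famDh, aD_0, aD_1, aD_2, aD_3, aD_4, aD_5, aD_6, aD_7, aD_8, aD_9, aD_10, aD_11, aD_12]
  compute_degree

theorem coeff_DD (c4 c6 N : R) :
    (famDh (C c4) (C c6) X (C N) : R[X]).coeff 12 = 1 := by
  simp only [famDh, aD_0, aD_1, aD_2, aD_3, aD_4, aD_5, aD_6, aD_7, aD_8, aD_9, aD_10, aD_11, aD_12]
  compute_degree!

theorem monic_DD (c4 c6 N : R) : (famDh (C c4) (C c6) X (C N) : R[X]).Monic :=
  monic_of_natDegree_le_of_coeff_eq_one 12 (natDegree_DD_le c4 c6 N) (coeff_DD c4 c6 N)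

theorem natDegree_DD [Nontrivial R] (c4 c6 N : R) :
    (famDh (C c4) (C c6) X (C N) : R[X]).natDegree = 12 :=
  natDegree_eq_of_le_of_coeff_ne_zero (natDegree_DD_le c4 c6 N)
    (by rw [coeff_DD]; exact one_ne_zero)

theorem natDegree_A_le (c4 c6 N : R) :
    (famC4h (C c4) (C c6) X (C N) : R[X]).natDegree ≤ 20 := by
  simp only [famC4h, aC4_0, aC4_1, aC4_2, aC4_3, aC4_4, aC4_5, aC4_6, aC4_7, aC4_8, aC4_9, aC4_10, aC4_11, aC4_12, aC4_13, aC4_14, aC4_15, aC4_16, aC4_17, aC4_18, aC4_19, aC4_20]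
  compute_degree

theorem coeff_A (c4 c6 N : R) :
    (famC4h (C c4) (C c6) X (C N) : R[X]).coeff 20 = c4 := by
  simp only [famC4h, aC4_0, aC4_1, aC4_2, aC4_3, aC4_4, aC4_5, aC4_6, aC4_7, aC4_8, aC4_9, aC4_10, aC4_11, aC4_12, aC4_13, aC4_14, aC4_15, aC4_16, aC4_17, aC4_18, aC4_19, aC4_20]
  compute_degree!

theorem natDegree_B_le (c4 c6 N : R) :
    (famC6h (C c4) (C c6) X (C N) : R[X]).natDegree ≤ 30 := by
  simp only [famC6h, aC6_0, aC6_1, aC6_2, aC6_3, aC6_4, aC6_5, aC6_6, aC6_7, aC6_8, aC6_9, aC6_10, aC6_11, aC6_12, aC6_13, aC6_14, aC6_15, aC6_16, aC6_17, aC6_18, aC6_19, aC6_20, aC6_21, aC6_22, aC6_23, aC6_24, aC6_25, aC6_26, aC6_27, aC6_28, aC6_29, aC6_30]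
  compute_degree

theorem coeff_B (c4 c6 N : R) :
    (famC6h (C c4) (C c6) X (C N) : R[X]).coeff 30 = c6 := by
  simp only [famC6h, aC6_0, aC6_1, aC6_2, aC6_3, aC6_4, aC6_5, aC6_6, aC6_7, aC6_8, aC6_9, aC6_10, aC6_11, aC6_12, aC6_13, aC6_14, aC6_15, aC6_16, aC6_17, aC6_18, aC6_19, aC6_20, aC6_21, aC6_22, aC6_23, aC6_24, aC6_25, aC6_26, aC6_27, aC6_28, aC6_29, aC6_30]
  compute_degree!

theorem eval_DD (c4 c6 N k : R) :
    (famDh (C c4) (C c6) X (C N) : R[X]).eval k = famDh c4 c6 k N := by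
  rw [← coe_evalRingHom, map_famDh]; simp

theorem eval_A (c4 c6 N k : R) :
    (famC4h (C c4) (C c6) X (C N) : R[X]).eval k = famC4h c4 c6 k N := by
  rw [← coe_evalRingHom, map_famC4h]; simp

theorem eval_B (c4 c6 N k : R) :
    (famC6h (C c4) (C c6) X (C N) : R[X]).eval k = famC6h c4 c6 k N := by
  rw [← coe_evalRingHom, map_famC6h]; simp

variable {S : Type*} [CommRing S] (φ : R →+* S)

theorem map_DD (c4 c6 N : R) :
    (famDh (C c4) (C c6) X (C N) : R[X]).map φ = famDh (C (φ c4)) (C (φ c6)) X (C (φ N)) := by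
  rw [← coe_mapRingHom, map_famDh]; simp

theorem map_A (c4 c6 N : R) :
    (famC4h (C c4) (C c6) X (C N) : R[X]).map φ = famC4h (C (φ c4)) (C (φ c6)) X (C (φ N)) := by
  rw [← coe_mapRingHom, map_famC4h]; simp

theorem map_B (c4 c6 N : R) :
    (famC6h (C c4) (C c6) X (C N) : R[X]).map φ = famC6h (C (φ c4)) (C (φ c6)) X (C (φ N)) := by
  rw [← coe_mapRingHom, map_famC6h]; simp

/-- the syzygy in `R[X]` -/
theorem rel_poly (c4 c6 N : R) :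
    (famC4h (C c4) (C c6) X (C N) : R[X]) ^ 3 - famC6h (C c4) (C c6) X (C N) ^ 2
      = C (c4 ^ 3 - c6 ^ 2) * famDh (C c4) (C c6) X (C N) ^ 5 := by
  rw [fam_rel_h]; simp only [map_sub, map_pow]

end Ring

section Field

variable {K : Type*} [Field K]

theorem two_three_five_ne_zero (h30 : (30 : K) ≠ 0) : (2 : K) ≠ 0 ∧ (3 : K) ≠ 0 ∧ (5 : K) ≠ 0 := by
  have e : (30 : K) = 2 * 3 * 5 := by norm_num
  rw [e] at h30
  exact ⟨left_ne_zero_of_mul (left_ne_zero_of_mul h30),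
    right_ne_zero_of_mul (left_ne_zero_of_mul h30), right_ne_zero_of_mul h30⟩

theorem DD_ne_zero (c4 c6 N : K) : (famDh (C c4) (C c6) X (C N) : K[X]) ≠ 0 :=
  (monic_DD c4 c6 N).ne_zero

theorem not_isUnit_DD (c4 c6 N : K) : ¬ IsUnit (famDh (C c4) (C c6) X (C N) : K[X]) := by
  intro h
  have := natDegree_eq_zero_of_isUnit h
  rw [natDegree_DD] at this
  exact absurd this (by norm_num)

/-- `IsCoprime A B`: the `n`-chart Bezout certificate `Fam.ss_cert` has a unit right-hand side. -/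
theorem isCoprime_A_B (c4 c6 N : K) (hΔ : c4 ^ 3 - c6 ^ 2 ≠ 0) (hN : N ≠ 0)
    (h30 : (30 : K) ≠ 0) :
    IsCoprime (famC4h (C c4) (C c6) X (C N) : K[X]) (famC6h (C c4) (C c6) X (C N)) := by
  obtain ⟨h2, h3, h5⟩ := two_three_five_ne_zero h30
  have hcert := ss_cert (C c4) (C c6) (X : K[X]) (C N)
  have hκ : (2 : K) ^ 46 * 3 ^ 22 * 5 ^ 10 * (c4 ^ 3 - c6 ^ 2) ^ 9 * N ^ 49 ≠ 0 :=
    mul_ne_zero (mul_ne_zero (mul_ne_zero (mul_ne_zero (pow_ne_zero _ h2) (pow_ne_zero _ h3))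
      (pow_ne_zero _ h5)) (pow_ne_zero _ hΔ)) (pow_ne_zero _ hN)
  have hC : (2 : K[X]) ^ 46 * 3 ^ 22 * 5 ^ 10 * (C c4 ^ 3 - C c6 ^ 2) ^ 9 * C N ^ 49
      = C ((2 : K) ^ 46 * 3 ^ 22 * 5 ^ 10 * (c4 ^ 3 - c6 ^ 2) ^ 9 * N ^ 49) := by
    simp only [map_mul, map_pow, map_sub, map_ofNat]
  rw [hC] at hcert
  refine ⟨C ((2 : K) ^ 46 * 3 ^ 22 * 5 ^ 10 * (c4 ^ 3 - c6 ^ 2) ^ 9 * N ^ 49)⁻¹
      * ssU (C c4) (C c6) X (C N),
    C ((2 : K) ^ 46 * 3 ^ 22 * 5 ^ 10 * (c4 ^ 3 - c6 ^ 2) ^ 9 * N ^ 49)⁻¹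
      * ssV (C c4) (C c6) X (C N), ?_⟩
  have hinv : (C ((2 : K) ^ 46 * 3 ^ 22 * 5 ^ 10 * (c4 ^ 3 - c6 ^ 2) ^ 9 * N ^ 49)⁻¹
      * C ((2 : K) ^ 46 * 3 ^ 22 * 5 ^ 10 * (c4 ^ 3 - c6 ^ 2) ^ 9 * N ^ 49) : K[X]) = 1 := by
    rw [← C_mul, inv_mul_cancel₀ hκ, C_1]
  linear_combination
    (C ((2 : K) ^ 46 * 3 ^ 22 * 5 ^ 10 * (c4 ^ 3 - c6 ^ 2) ^ 9 * N ^ 49)⁻¹ : K[X]) * hcert + hinv

/-- `IsCoprime DD B` -/
theorem isCoprime_DD_B (c4 c6 N : K) (hΔ : c4 ^ 3 - c6 ^ 2 ≠ 0) (hN : N ≠ 0)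
    (h30 : (30 : K) ≠ 0) :
    IsCoprime (famDh (C c4) (C c6) X (C N) : K[X]) (famC6h (C c4) (C c6) X (C N)) := by
  have hAB := isCoprime_A_B c4 c6 N hΔ hN h30
  have hrel := fam_rel_h (C c4) (C c6) (X : K[X]) (C N)
  have h1 : IsCoprime (famC4h (C c4) (C c6) X (C N) ^ 3 : K[X])
      (famC6h (C c4) (C c6) X (C N)) := hAB.pow_left
  have h2' : IsCoprime (famC4h (C c4) (C c6) X (C N) ^ 3 - famC6h (C c4) (C c6) X (C N) ^ 2 : K[X])
      (famC6h (C c4) (C c6) X (C N)) := by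
    have e : (famC4h (C c4) (C c6) X (C N) ^ 3 - famC6h (C c4) (C c6) X (C N) ^ 2 : K[X])
        = famC4h (C c4) (C c6) X (C N) ^ 3
          + famC6h (C c4) (C c6) X (C N) * (-famC6h (C c4) (C c6) X (C N)) := by ring
    rw [e]
    exact h1.add_mul_left_left _
  rw [hrel] at h2'
  exact (IsCoprime.pow_left_iff (by norm_num : 0 < 5)).mp h2'.of_mul_left_right

/-- `c * DD ^ 5` (`c ≠ 0`) is not a cube in `K[X]`. -/
theorem const_mul_DD_pow_five_not_cube (c4 c6 N : K) (hΔ : c4 ^ 3 - c6 ^ 2 ≠ 0) (hN : N ≠ 0)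
    (h30 : (30 : K) ≠ 0) (c : K) (hc : c ≠ 0) :
    ¬ ∃ g : K[X], C c * famDh (C c4) (C c6) X (C N) ^ 5 = g ^ 3 := by
  rintro ⟨g, hg⟩
  have hsq := squarefree_famDh c4 c6 N hΔ hN h30
  have hD0 := DD_ne_zero c4 c6 N
  -- `DD ∣ g`
  obtain ⟨g1, rfl⟩ : (famDh (C c4) (C c6) X (C N) : K[X]) ∣ g := by
    refine (hsq.dvd_pow_iff_dvd (by norm_num : 3 ≠ 0)).mp ?_
    rw [← hg]
    exact Dvd.dvd.mul_left (dvd_pow_self _ (by norm_num)) _
  -- cancel `DD ^ 3`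
  have h1 : C c * (famDh (C c4) (C c6) X (C N) : K[X]) ^ 2 = g1 ^ 3 := by
    have h3 : ((famDh (C c4) (C c6) X (C N) : K[X]) ^ 3) ≠ 0 := pow_ne_zero _ hD0
    apply mul_left_cancel₀ h3
    linear_combination hg
  obtain ⟨g2, rfl⟩ : (famDh (C c4) (C c6) X (C N) : K[X]) ∣ g1 := by
    refine (hsq.dvd_pow_iff_dvd (by norm_num : 3 ≠ 0)).mp ?_
    rw [← h1]
    exact Dvd.dvd.mul_left (dvd_pow_self _ (by norm_num)) _
  have h2 : (C c : K[X]) = famDh (C c4) (C c6) X (C N) * g2 ^ 3 := by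
    have h3 : ((famDh (C c4) (C c6) X (C N) : K[X]) ^ 2) ≠ 0 := pow_ne_zero _ hD0
    apply mul_left_cancel₀ h3
    linear_combination h1
  have hu : IsUnit (famDh (C c4) (C c6) X (C N) : K[X]) :=
    isUnit_of_dvd_unit ⟨_, h2⟩ (isUnit_C.mpr (isUnit_iff_ne_zero.mpr hc))
  exact not_isUnit_DD c4 c6 N hu

/-- `DD` is not a constant times a cube. -/
theorem DD_not_const_mul_cube (c4 c6 N : K) (hΔ : c4 ^ 3 - c6 ^ 2 ≠ 0) (hN : N ≠ 0)
    (h30 : (30 : K) ≠ 0) :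
    ¬ ∃ (c : K) (h : K[X]), (famDh (C c4) (C c6) X (C N) : K[X]) = C c * h ^ 3 := by
  rintro ⟨c, h, hh⟩
  have hsq := squarefree_famDh c4 c6 N hΔ hN h30
  have hdvd : h * h ∣ (famDh (C c4) (C c6) X (C N) : K[X]) := by
    rw [hh]; exact ⟨C c * h, by ring⟩
  have hu : IsUnit h := hsq h hdvd
  have hc : c ≠ 0 := by
    rintro rfl
    rw [C_0, zero_mul] at hh
    exact DD_ne_zero c4 c6 N hh
  apply not_isUnit_DD c4 c6 N
  rw [hh]
  exact (isUnit_C.mpr (isUnit_iff_ne_zero.mpr hc)).mul (hu.pow 3)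

end Field

section Rat

/-- base change `ℤ[X] → ℚ[X]` of `DD` -/
theorem map_DD_int (c4 c6 N : ℤ) :
    (famDh (C c4) (C c6) X (C N) : ℤ[X]).map (Int.castRingHom ℚ)
      = famDh (C (c4 : ℚ)) (C (c6 : ℚ)) X (C (N : ℚ)) := by
  rw [map_DD]; simp

/-- base change `ℤ[X] → ℚ[X]` of `A` -/
theorem map_A_int (c4 c6 N : ℤ) :
    (famC4h (C c4) (C c6) X (C N) : ℤ[X]).map (Int.castRingHom ℚ)
      = famC4h (C (c4 : ℚ)) (C (c6 : ℚ)) X (C (N : ℚ)) := by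
  rw [map_A]; simp

/-- base change `ℤ[X] → ℚ[X]` of `B` -/
theorem map_B_int (c4 c6 N : ℤ) :
    (famC6h (C c4) (C c6) X (C N) : ℤ[X]).map (Int.castRingHom ℚ)
      = famC6h (C (c4 : ℚ)) (C (c6 : ℚ)) X (C (N : ℚ)) := by
  rw [map_B]; simp

theorem rat_hΔ {c4 c6 : ℤ} (hΔ : c4 ^ 3 - c6 ^ 2 ≠ 0) : (c4 : ℚ) ^ 3 - (c6 : ℚ) ^ 2 ≠ 0 := by
  exact_mod_cast hΔ

theorem squarefree_DD_int (c4 c6 N : ℤ) (hΔ : c4 ^ 3 - c6 ^ 2 ≠ 0) (hN : N ≠ 0) :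
    Squarefree ((famDh (C c4) (C c6) X (C N) : ℤ[X]).map (Int.castRingHom ℚ)) := by
  rw [map_DD_int]
  exact squarefree_famDh _ _ _ (rat_hΔ hΔ) (by exact_mod_cast hN) (by norm_num)

theorem isCoprime_DD_A_int (c4 c6 N : ℤ) (hΔ : c4 ^ 3 - c6 ^ 2 ≠ 0) (hN : N ≠ 0) :
    IsCoprime ((famDh (C c4) (C c6) X (C N) : ℤ[X]).map (Int.castRingHom ℚ))
      ((famC4h (C c4) (C c6) X (C N) : ℤ[X]).map (Int.castRingHom ℚ)) := by
  rw [map_DD_int, map_A_int]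
  exact isCoprime_famDh_famC4h _ _ _ (rat_hΔ hΔ) (by exact_mod_cast hN) (by norm_num)

theorem isCoprime_DD_B_int (c4 c6 N : ℤ) (hΔ : c4 ^ 3 - c6 ^ 2 ≠ 0) (hN : N ≠ 0) :
    IsCoprime ((famDh (C c4) (C c6) X (C N) : ℤ[X]).map (Int.castRingHom ℚ))
      ((famC6h (C c4) (C c6) X (C N) : ℤ[X]).map (Int.castRingHom ℚ)) := by
  rw [map_DD_int, map_B_int]
  exact isCoprime_DD_B _ _ _ (rat_hΔ hΔ) (by exact_mod_cast hN) (by norm_num)

theorem isCoprime_A_B_int (c4 c6 N : ℤ) (hΔ : c4 ^ 3 - c6 ^ 2 ≠ 0) (hN : N ≠ 0) :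
    IsCoprime ((famC4h (C c4) (C c6) X (C N) : ℤ[X]).map (Int.castRingHom ℚ))
      ((famC6h (C c4) (C c6) X (C N) : ℤ[X]).map (Int.castRingHom ℚ)) := by
  rw [map_A_int, map_B_int]
  exact isCoprime_A_B _ _ _ (rat_hΔ hΔ) (by exact_mod_cast hN) (by norm_num)

/-- the syzygy for the base-changed polynomials -/
theorem rel_poly_int (c4 c6 N : ℤ) :
    ((famC4h (C c4) (C c6) X (C N) : ℤ[X]).map (Int.castRingHom ℚ)) ^ 3
        - ((famC6h (C c4) (C c6) X (C N) : ℤ[X]).map (Int.castRingHom ℚ)) ^ 2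
      = C ((c4 : ℚ) ^ 3 - (c6 : ℚ) ^ 2)
        * ((famDh (C c4) (C c6) X (C N) : ℤ[X]).map (Int.castRingHom ℚ)) ^ 5 := by
  rw [map_DD_int, map_A_int, map_B_int]
  exact rel_poly _ _ _

theorem const_mul_DD_pow_five_not_cube_int (c4 c6 N : ℤ) (hΔ : c4 ^ 3 - c6 ^ 2 ≠ 0) (hN : N ≠ 0)
    (c : ℚ) (hc : c ≠ 0) :
    ¬ ∃ g : ℚ[X],
      C c * ((famDh (C c4) (C c6) X (C N) : ℤ[X]).map (Int.castRingHom ℚ)) ^ 5 = g ^ 3 := by
  rw [map_DD_int]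
  exact const_mul_DD_pow_five_not_cube _ _ _ (rat_hΔ hΔ) (by exact_mod_cast hN) (by norm_num) c hc

end Rat

end Fermat.Agent.S52.Irr
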