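import Mathlib

/-!
# S52, (Irr3): generic irreducibility of the 3-division quartic of the family

For `A B DD : ℚ[X]` with `A^3 - B^2 = c * DD^5`, `c ≠ 0`, `DD` squarefree of degree `12` and coprime
to `A`, `deg A ≤ 20`, `deg B ≤ 30`, the quartic `Z^4 - 6 A Z^2 - 8 B Z - 3 A^2` is irreducible over
`ℚ[X]`.
-/

set_option autoImplicit false

namespace Fermat.Agent.S52.Irr.GenAlt

open Polynomial

theorem three_mul_ne_five (y : ℕ∞) : 3 * y ≠ 5 := by
  induction y using ENat.recTopCoe with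
  | top => simp
  | coe n =>
    intro h
    have h' : 3 * n = 5 := by exact_mod_cast h
    omega

theorem not_dvd_C {P : ℚ[X]} (hP : Prime P) {c : ℚ} (hc : c ≠ 0) : ¬ P ∣ C c := fun h =>
  hP.not_isUnit (isUnit_of_dvd_unit h (isUnit_C.mpr hc.isUnit))

/-- the multiplicity of a prime factor `P` of the squarefree `DD` in `c * DD^5 * Y^2`, `P ∤ Y` -/
theorem emult_rhs {P DD Y : ℚ[X]} (c : ℚ) (hc : c ≠ 0) (hP : Prime P) (hPD : P ∣ DD)
    (hsq : Squarefree DD) (hY : ¬ P ∣ Y) :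
    emultiplicity P (C c * DD ^ 5 * Y ^ 2) = 5 := by
  rw [emultiplicity_mul hP, emultiplicity_mul hP, emultiplicity_pow hP, emultiplicity_pow hP]
  have h1 : emultiplicity P (C c) = 0 := emultiplicity_eq_zero.mpr (not_dvd_C hP hc)
  have h2 : emultiplicity P DD = 1 := by
    refine le_antisymm ?_ ?_
    · rcases (squarefree_iff_emultiplicity_le_one DD).mp hsq P with h | h
      · exact h
      · exact absurd h hP.not_isUnit
    · have := (pow_dvd_iff_le_emultiplicity (a := P) (b := DD) (k := 1)).mp (by simpa using hPD)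
      simpa using this
  have h3 : emultiplicity P Y = 0 := emultiplicity_eq_zero.mpr hY
  rw [h1, h2, h3]
  norm_num

/-- (G2): the generic quartic has no root in `ℚ[X]`. -/
theorem no_root (A B DD : ℚ[X]) (c : ℚ) (hc : c ≠ 0) (hrel : A ^ 3 - B ^ 2 = C c * DD ^ 5)
    (hcop : IsCoprime DD A) (hsq : Squarefree DD) (hDD : DD.natDegree = 12)
    (hA : A.natDegree ≤ 20) (hB : B.natDegree ≤ 30) (Y : ℚ[X])
    (hY : Y ^ 4 - C 6 * A * Y ^ 2 - C 8 * B * Y - C 3 * A ^ 2 = 0) : False := by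
  have hDD0 : DD ≠ 0 := by
    rintro rfl
    simp at hDD
  -- Step 1: `deg Y ≤ 10`
  have hYdeg : Y.natDegree ≤ 10 := by
    by_contra hlt
    have hlt' : 10 < Y.natDegree := not_le.mp hlt
    have e1 : Y ^ 4 = C 6 * (A * Y ^ 2) + C 8 * (B * Y) + C 3 * A ^ 2 := by
      linear_combination hY
    have b1 : (C (6 : ℚ) * (A * Y ^ 2)).natDegree ≤ 20 + 2 * Y.natDegree :=
      (natDegree_C_mul_le _ _).trans (natDegree_mul_le_of_le hA (natDegree_pow_le_of_le 2 le_rfl))
    have b2 : (C (8 : ℚ) * (B * Y)).natDegree ≤ 30 + Y.natDegree :=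
      (natDegree_C_mul_le _ _).trans (natDegree_mul_le_of_le hB le_rfl)
    have b3 : (C (3 : ℚ) * A ^ 2).natDegree ≤ 40 :=
      (natDegree_C_mul_le _ _).trans ((natDegree_pow_le_of_le 2 hA).trans (by norm_num))
    have d1 : (Y ^ 4).natDegree ≤ 4 * Y.natDegree - 1 := by
      rw [e1]
      exact natDegree_add_le_of_degree_le (natDegree_add_le_of_degree_le (b1.trans (by omega))
        (b2.trans (by omega))) (b3.trans (by omega))
    rw [natDegree_pow] at d1
    omega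
  -- Step 2: the identity (I1)
  have hI : (Y ^ 2 - C 9 * A) * (Y ^ 2 - A) ^ 3 = C (-64 * c) * DD ^ 5 * Y ^ 2 := by
    have h64 : (C (-64 * c) : ℚ[X]) = -(C 64) * C c := by
      rw [← C_neg, ← C_mul]
    rw [h64, mul_assoc (-(C (64 : ℚ))), ← hrel]
    have e9 : (C (9 : ℚ) : ℚ[X]) = 9 := map_ofNat C 9
    have e64 : (C (64 : ℚ) : ℚ[X]) = 64 := map_ofNat C 64
    have e6 : (C (6 : ℚ) : ℚ[X]) = 6 := map_ofNat C 6
    have e8 : (C (8 : ℚ) : ℚ[X]) = 8 := map_ofNat C 8
    have e3 : (C (3 : ℚ) : ℚ[X]) = 3 := map_ofNat C 3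
    rw [e6, e8, e3] at hY
    rw [e9, e64]
    linear_combination (Y ^ 4 - 6 * A * Y ^ 2 - 3 * A ^ 2 + 8 * B * Y) * hY
  -- Step 3: `DD` is coprime to `Y`
  have hA2 : A ^ 2 = Y * (C (1 / 3 : ℚ) * (Y ^ 3 - C 6 * A * Y - C 8 * B)) := by
    have h13 : (C (1 / 3 : ℚ) : ℚ[X]) * C 3 = 1 := by
      rw [← C_mul]; norm_num
    linear_combination (-(C (1 / 3 : ℚ))) * hY - A ^ 2 * h13
  have hcopY : IsCoprime DD Y := by
    have h := hcop.pow_right (n := 2)
    rw [hA2] at h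
    exact h.of_mul_right_left
  -- Step 4: `DD` is coprime to `Y^2 - A`
  have hcopU : IsCoprime DD (Y ^ 2 - A) := by
    refine isCoprime_of_prime_dvd (fun h => hDD0 h.1) (fun P hP hPD hPu => ?_)
    have hPA : IsCoprime P A := hcop.of_isCoprime_of_dvd_left hPD
    have hPY : ¬ P ∣ Y := fun h =>
      hP.not_isUnit ((hcopY.of_isCoprime_of_dvd_left hPD).isUnit_of_dvd' (dvd_refl P) h)
    have hPw : ¬ P ∣ (Y ^ 2 - C 9 * A) := by
      intro h
      have h8 : P ∣ C 8 * A := by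
        have h' := dvd_sub hPu h
        have e : Y ^ 2 - A - (Y ^ 2 - C 9 * A) = C 8 * A := by
          have e9 : (C (9 : ℚ) : ℚ[X]) = 9 := map_ofNat C 9
          have e8 : (C (8 : ℚ) : ℚ[X]) = 8 := map_ofNat C 8
          rw [e9, e8]; ring
        rwa [e] at h'
      exact not_dvd_C hP (by norm_num : (8 : ℚ) ≠ 0) (hPA.dvd_of_dvd_mul_right h8)
    have e := congrArg (emultiplicity P) hI
    rw [emult_rhs (-64 * c) (by simpa using hc) hP hPD hsq hPY, emultiplicity_mul hP,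
      emultiplicity_pow hP, emultiplicity_eq_zero.mpr hPw, zero_add] at e
    exact three_mul_ne_five _ (by simpa using e)
  -- Step 5: `DD^5 ∣ Y^2 - 9 A`
  have hdvd : DD ^ 5 ∣ (Y ^ 2 - C 9 * A) * (Y ^ 2 - A) ^ 3 :=
    ⟨C (-64 * c) * Y ^ 2, by rw [hI]; ring⟩
  have hdvd' : DD ^ 5 ∣ Y ^ 2 - C 9 * A :=
    (hcopU.pow (m := 5) (n := 3)).dvd_of_dvd_mul_right hdvd
  -- Step 6: `Y^2 = 9 A`
  have hzero : Y ^ 2 - C 9 * A = 0 := by
    by_contra hne
    have h1 := natDegree_le_of_dvd hdvd' hne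
    rw [natDegree_pow, hDD] at h1
    have h2 : (Y ^ 2 - C 9 * A).natDegree ≤ 20 :=
      (natDegree_sub_le _ _).trans (max_le ((natDegree_pow_le_of_le 2 hYdeg).trans (by norm_num))
        ((natDegree_C_mul_le _ _).trans hA))
    omega
  -- Step 7: contradiction
  rw [hzero, zero_mul] at hI
  have hY0 : Y = 0 := by
    have h := hI.symm
    rcases mul_eq_zero.mp h with h | h
    · rcases mul_eq_zero.mp h with h | h
      · exact absurd (C_eq_zero.mp h) (by simpa using hc)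
      · exact absurd (pow_eq_zero_iff (by norm_num) |>.mp h) hDD0
    · exact pow_eq_zero_iff (by norm_num) |>.mp h
  rw [hY0] at hzero
  have hA0 : A = 0 := by
    have h : C (9 : ℚ) * A = 0 := by linear_combination -hzero
    rcases mul_eq_zero.mp h with h | h
    · exact absurd (C_eq_zero.mp h) (by norm_num)
    · exact h
  rw [hA0] at hcop
  have hu : IsUnit DD := isCoprime_zero_right.mp hcop
  have := natDegree_eq_zero_of_isUnit hu
  omega

/-- (G1): the resolvent: no factorisation into two quadratics. -/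
theorem no_quadratic (A B DD : ℚ[X]) (c : ℚ) (hc : c ≠ 0) (hrel : A ^ 3 - B ^ 2 = C c * DD ^ 5)
    (hsq : Squarefree DD) (hDD : DD.natDegree = 12) (a b c' : ℚ[X])
    (e2 : b + c' - a ^ 2 + C 6 * A = 0) (e1 : a * (c' - b) + C 8 * B = 0)
    (e0 : b * c' + C 3 * A ^ 2 = 0) : False := by
  have hDD0 : DD ≠ 0 := by
    rintro rfl
    simp at hDD
  have hDDu : ¬ IsUnit DD := fun hu => by
    have := natDegree_eq_zero_of_isUnit hu
    omega
  have hW : (a ^ 2 - C 4 * A) ^ 3 = C (-64 * c) * DD ^ 5 * 1 ^ 2 := by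
    have h64 : (C (-64 * c) : ℚ[X]) = -(C 64) * C c := by
      rw [← C_neg, ← C_mul]
    rw [h64, mul_assoc (-(C (64 : ℚ))), ← hrel]
    have e4 : (C (4 : ℚ) : ℚ[X]) = 4 := map_ofNat C 4
    have e64 : (C (64 : ℚ) : ℚ[X]) = 64 := map_ofNat C 64
    have e6 : (C (6 : ℚ) : ℚ[X]) = 6 := map_ofNat C 6
    have e8 : (C (8 : ℚ) : ℚ[X]) = 8 := map_ofNat C 8
    have e3 : (C (3 : ℚ) : ℚ[X]) = 3 := map_ofNat C 3
    rw [e6] at e2
    rw [e8] at e1
    rw [e3] at e0
    rw [e4, e64]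
    linear_combination (a ^ 2 * (6 * A - a ^ 2 - b - c')) * e2 - (8 * B - a * (c' - b)) * e1
      + 4 * a ^ 2 * e0
  obtain ⟨P, hPirr, hPD⟩ := WfDvdMonoid.exists_irreducible_factor hDDu hDD0
  have hP : Prime P := hPirr.prime
  have e := congrArg (emultiplicity P) hW
  rw [emult_rhs (-64 * c) (by simpa using hc) hP hPD hsq
    (fun h => hP.not_isUnit (isUnit_of_dvd_one h)), emultiplicity_pow hP] at e
  exact three_mul_ne_five _ (by simpa using e)

theorem monic_quadratic_eq {R : Type*} [CommRing R] {p : R[X]} (hm : p.Monic)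
    (hd : p.natDegree = 2) : p = X ^ 2 + C (p.coeff 1) * X + C (p.coeff 0) := by
  have h := p.as_sum_range_C_mul_X_pow
  rw [hd] at h
  have h2 : p.coeff 2 = 1 := by
    rw [← hd]; exact hm.coeff_natDegree
  conv_lhs => rw [h]
  simp only [Finset.sum_range_succ, Finset.sum_range_zero, h2]
  simp only [map_one, pow_zero, pow_one, mul_one, one_mul, zero_add]
  ring

theorem coeffs_of_quartic_eq {R : Type*} [CommRing R] (p3 p2 p1 p0 q3 q2 q1 q0 : R)
    (h : (X ^ 4 + C p3 * X ^ 3 + C p2 * X ^ 2 + C p1 * X + C p0 : R[X])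
      = X ^ 4 + C q3 * X ^ 3 + C q2 * X ^ 2 + C q1 * X + C q0) :
    p3 = q3 ∧ p2 = q2 ∧ p1 = q1 ∧ p0 = q0 := by
  have k3 := congrArg (fun p : R[X] => p.coeff 3) h
  have k2 := congrArg (fun p : R[X] => p.coeff 2) h
  have k1 := congrArg (fun p : R[X] => p.coeff 1) h
  have k0 := congrArg (fun p : R[X] => p.coeff 0) h
  simp only [coeff_add, coeff_X_pow, coeff_C_mul_X_pow, coeff_C_mul_X, coeff_C] at k3 k2 k1 k0
  norm_num at k3 k2 k1 k0
  exact ⟨k3, k2, k1, k0⟩

/-- **Generic irreducibility** of the quartic `Z^4 - 6 A Z^2 - 8 B Z - 3 A^2` over `ℚ[X]`. -/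
theorem irreducible_quartic (A B DD : ℚ[X]) (c : ℚ) (hc : c ≠ 0)
    (hrel : A ^ 3 - B ^ 2 = C c * DD ^ 5) (hcop : IsCoprime DD A) (hsq : Squarefree DD)
    (hDD : DD.natDegree = 12) (hA : A.natDegree ≤ 20) (hB : B.natDegree ≤ 30) :
    Irreducible (X ^ 4 - C (6 * A) * X ^ 2 - C (8 * B) * X - C (3 * A ^ 2) : (ℚ[X])[X]) := by
  have e6 : (C (6 : ℚ) : ℚ[X]) = 6 := map_ofNat C 6
  have e8 : (C (8 : ℚ) : ℚ[X]) = 8 := map_ofNat C 8
  have e3 : (C (3 : ℚ) : ℚ[X]) = 3 := map_ofNat C 3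
  set F : (ℚ[X])[X] := X ^ 4 - C (6 * A) * X ^ 2 - C (8 * B) * X - C (3 * A ^ 2) with hF
  have hFeq : F = X ^ 4 - (C (6 * A) * X ^ 2 + C (8 * B) * X + C (3 * A ^ 2)) := by
    rw [hF]; ring
  have hdeg : (C (6 * A) * X ^ 2 + C (8 * B) * X + C (3 * A ^ 2) : (ℚ[X])[X]).degree < ((4 : ℕ) : WithBot ℕ) :=
    lt_of_le_of_lt degree_quadratic_le (by norm_num)
  have hFm : F.Monic := by
    rw [hFeq]; exact monic_X_pow_sub hdeg
  have hFd : F.natDegree = 4 := by
    rw [hFeq, natDegree_sub_eq_left_of_natDegree_lt, natDegree_X_pow]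
    rw [natDegree_X_pow]
    exact lt_of_le_of_lt natDegree_quadratic_le (by norm_num)
  have hFeval : ∀ Y : ℚ[X], F.eval Y = Y ^ 4 - C 6 * A * Y ^ 2 - C 8 * B * Y - C 3 * A ^ 2 := by
    intro Y
    rw [hF, e6, e8, e3]
    simp only [eval_sub, eval_mul, eval_pow, eval_X, eval_C]
  rw [hFm.irreducible_iff_natDegree']
  refine ⟨fun h => ?_, fun f g hf hg hfg hmem => ?_⟩
  · rw [h] at hFd; simp at hFd
  rw [hFd] at hmem
  have hsum : f.natDegree + g.natDegree = 4 := by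
    rw [← hf.natDegree_mul hg, hfg, hFd]
  have hg12 : g.natDegree = 1 ∨ g.natDegree = 2 := by
    have := Finset.mem_Ioc.mp hmem
    omega
  rcases hg12 with hg1 | hg2
  · -- a linear factor gives a root
    have hgeq := hg.eq_X_add_C hg1
    have hroot : F.eval (-(g.coeff 0)) = 0 := by
      rw [← hfg, eval_mul, hgeq]
      simp
    rw [hFeval] at hroot
    exact no_root A B DD c hc hrel hcop hsq hDD hA hB _ hroot
  · -- two quadratic factors
    have hf2 : f.natDegree = 2 := by omega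
    have hgeq := monic_quadratic_eq hg hg2
    have hfeq := monic_quadratic_eq hf hf2
    set f1 := f.coeff 1
    set f0 := f.coeff 0
    set g1 := g.coeff 1
    set g0 := g.coeff 0
    have hprod : f * g = X ^ 4 + C (f1 + g1) * X ^ 3 + C (f0 + g0 + f1 * g1) * X ^ 2
        + C (f1 * g0 + f0 * g1) * X + C (f0 * g0) := by
      rw [hfeq, hgeq]
      simp only [map_add, map_mul]
      ring
    have hF' : F = X ^ 4 + C 0 * X ^ 3 + C (-(C 6 * A)) * X ^ 2 + C (-(C 8 * B)) * X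
        + C (-(C 3 * A ^ 2)) := by
      rw [hF, e6, e8, e3]
      simp only [map_neg, map_zero]
      ring
    rw [hprod, hF'] at hfg
    obtain ⟨k3, k2, k1, k0⟩ := coeffs_of_quartic_eq _ _ _ _ _ _ _ _ hfg
    have hf1 : f1 = -g1 := by linear_combination k3
    refine no_quadratic A B DD c hc hrel hsq hDD g1 g0 f0 ?_ ?_ ?_
    · rw [hf1] at k2; linear_combination k2
    · rw [hf1] at k1; linear_combination k1
    · linear_combination k0

end Fermat.Agent.S52.Irr.GenAlt
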