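import Fermat.Agent.S52.Irr.Wire
import Fermat.Agent.S52.Irr.GenAlt
import Fermat.Agent.S52.Irr.Feed

/-!
# S52, (Irr3): alternative complete proof of the field `irr` (runge4 + GenAlt + Certs)

Independent of `Fam/Irr.lean`; same conclusion (with the quartic written out).
-/

set_option autoImplicit false

namespace Fermat.Agent.S52.Irr

open Polynomial
open Fermat.Agent.S52.Fam

/-- the generic quartic of the family is irreducible over `ℚ[k]` -/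
theorem irreducible_family_quartic (c4 c6 N : ℤ) (hΔ : c4 ^ 3 - c6 ^ 2 ≠ 0) (hN : N ≠ 0) :
    Irreducible (X ^ 4 - C (6 * polyA (c4 : ℚ) (c6 : ℚ) (N : ℚ)) * X ^ 2
      - C (8 * polyB (c4 : ℚ) (c6 : ℚ) (N : ℚ)) * X
      - C (3 * polyA (c4 : ℚ) (c6 : ℚ) (N : ℚ) ^ 2) : (ℚ[X])[X]) := by
  have hΔq : (c4 : ℚ) ^ 3 - (c6 : ℚ) ^ 2 ≠ 0 := rat_hΔ hΔ
  have hNq : (N : ℚ) ≠ 0 := by exact_mod_cast hN
  exact GenAlt.irreducible_quartic (polyA (c4 : ℚ) (c6 : ℚ) (N : ℚ)) (polyB (c4 : ℚ) (c6 : ℚ) (N : ℚ))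
    (famDh (C (c4 : ℚ)) (C (c6 : ℚ)) X (C (N : ℚ))) ((c4 : ℚ) ^ 3 - (c6 : ℚ) ^ 2) hΔq
    (rel_poly _ _ _) (isCoprime_famDh_famC4h _ _ _ hΔq hNq (by norm_num))
    (squarefree_famDh _ _ _ hΔq hNq (by norm_num)) (natDegree_DD _ _ _)
    (natDegree_polyA_le _ _ _) (natDegree_polyB_le _ _ _)

/-- **Field `irr`** (alternative proof): if the base quartic has an integer root, then for all
large `k` the quartic of the member `(k, N)` has no integer root. -/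
theorem irr_brick_alt (c4 c6 z₀ N : ℤ) (hΔ : c4 ^ 3 - c6 ^ 2 ≠ 0)
    (hz : z₀ ^ 4 - 6 * c4 * z₀ ^ 2 - 8 * c6 * z₀ - 3 * c4 ^ 2 = 0) (hN : N ≠ 0) :
    ∃ k₀ : ℤ, ∀ k : ℤ, k₀ ≤ k → ∀ z : ℤ,
      z ^ 4 - 6 * famC4h c4 c6 k N * z ^ 2 - 8 * famC6h c4 c6 k N * z
        - 3 * famC4h c4 c6 k N ^ 2 ≠ 0 :=
  irr_of_irreducible c4 c6 z₀ N hΔ hz (irreducible_family_quartic c4 c6 N hΔ hN)

end Fermat.Agent.S52.Irr
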