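import Mathlib
import Fermat.Prelude.Def_FLTPrelim_Modularity

set_option autoImplicit false

namespace Fermat.Agent.S52.Irr.Criterion

/-! ### Integer algebra -/

lemma key_identity {z c4 c6 Δ : ℤ} (hQ : z ^ 4 - 6 * c4 * z ^ 2 - 8 * c6 * z - 3 * c4 ^ 2 = 0)
    (hc : 1728 * Δ = c4 ^ 3 - c6 ^ 2) :
    (9 * c4 - z ^ 2) * (z ^ 2 - c4) ^ 3 = 110592 * Δ * z ^ 2 := by
  linear_combination (-(z ^ 4 - 6 * c4 * z ^ 2 - 3 * c4 ^ 2 + 8 * c6 * z)) * hQ - 64 * z ^ 2 * hc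

lemma prime_not_dvd_two_pow_three_pow {p : ℕ} (hp : p.Prime) (h5 : 5 ≤ p) (a b : ℕ) :
    ¬ (p : ℤ) ∣ 2 ^ a * 3 ^ b := by
  have hpp : Prime (p : ℤ) := Nat.prime_iff_prime_int.mp hp
  intro h
  rcases hpp.dvd_or_dvd h with h | h
  · have h2 := hpp.dvd_of_dvd_pow h
    have : p ∣ 2 := by exact_mod_cast h2
    have := Nat.le_of_dvd (by norm_num) this
    omega
  · have h3 := hpp.dvd_of_dvd_pow h
    have : p ∣ 3 := by exact_mod_cast h3
    have := Nat.le_of_dvd (by norm_num) this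
    omega

/-- Local analysis at a Tate prime whose discriminant valuation is prime to `3`. -/
lemma local_at_prime {p : ℕ} (hp : p.Prime) (h5 : 5 ≤ p) {z c4 c6 Δ : ℤ}
    (hQ : z ^ 4 - 6 * c4 * z ^ 2 - 8 * c6 * z - 3 * c4 ^ 2 = 0)
    (hc : 1728 * Δ = c4 ^ 3 - c6 ^ 2)
    (hΔ : Δ ≠ 0) (hpΔ : (p : ℤ) ∣ Δ) (hpc : ¬ (p : ℤ) ∣ c4) (h3 : ¬ 3 ∣ padicValInt p Δ) :
    ¬ (p : ℤ) ∣ z ∧ (p : ℤ) ∣ (c6 * z - 3 * c4 ^ 2) := by
  have : Fact p.Prime := ⟨hp⟩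
  have hpp : Prime (p : ℤ) := Nat.prime_iff_prime_int.mp hp
  have hI := key_identity hQ hc
  have h8 : ¬ (p : ℤ) ∣ 8 := by
    have := prime_not_dvd_two_pow_three_pow hp h5 3 0
    norm_num at this
    exact this
  have h9 : ¬ (p : ℤ) ∣ 9 := by
    have := prime_not_dvd_two_pow_three_pow hp h5 0 2
    norm_num at this
    exact this
  have h110592 : ¬ (p : ℤ) ∣ 110592 := by
    have := prime_not_dvd_two_pow_three_pow hp h5 12 3
    norm_num at this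
    exact this
  -- (a) p ∤ z
  have hz : ¬ (p : ℤ) ∣ z := by
    intro hz
    have h1 : (p : ℤ) ∣ (9 * c4 - z ^ 2) * (z ^ 2 - c4) ^ 3 := by
      rw [hI]
      exact Dvd.dvd.mul_left (dvd_pow hz two_ne_zero) _
    rcases hpp.dvd_or_dvd h1 with h | h
    · have : (p : ℤ) ∣ 9 * c4 := by
        have h2 : (p : ℤ) ∣ z ^ 2 := dvd_pow hz two_ne_zero
        have := dvd_add h h2
        simpa using this
      rcases hpp.dvd_or_dvd this with h | h
      · exact h9 h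
      · exact hpc h
    · have h2 := hpp.dvd_of_dvd_pow h
      have : (p : ℤ) ∣ c4 := by
        have h3 : (p : ℤ) ∣ z ^ 2 := dvd_pow hz two_ne_zero
        have := dvd_sub h3 h2
        simpa using this
      exact hpc this
  have hz0 : z ≠ 0 := fun h => hz (h ▸ dvd_zero _)
  have hprod0 : (9 * c4 - z ^ 2) * (z ^ 2 - c4) ^ 3 ≠ 0 := by
    rw [hI]
    have : (110592 : ℤ) ≠ 0 := by norm_num
    positivity
  have hA0 : 9 * c4 - z ^ 2 ≠ 0 := left_ne_zero_of_mul hprod0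
  have hB0 : z ^ 2 - c4 ≠ 0 := by
    intro h
    rw [h] at hprod0
    simp at hprod0
  -- (b) p ∤ z^2 - c4
  have hb : ¬ (p : ℤ) ∣ z ^ 2 - c4 := by
    intro hb
    have ha : ¬ (p : ℤ) ∣ 9 * c4 - z ^ 2 := by
      intro ha
      have : (p : ℤ) ∣ 8 * c4 := by
        have := dvd_add ha hb
        have e : 9 * c4 - z ^ 2 + (z ^ 2 - c4) = 8 * c4 := by ring
        rwa [e] at this
      rcases hpp.dvd_or_dvd this with h | h
      · exact h8 h
      · exact hpc h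
    have hv := congrArg (padicValInt p) hI
    have hB3 : (z ^ 2 - c4) ^ 3 ≠ 0 := pow_ne_zero _ hB0
    rw [padicValInt.mul hA0 hB3, padicValInt.eq_zero_of_not_dvd ha, zero_add,
      pow_succ, pow_succ, pow_one,
      padicValInt.mul (mul_ne_zero hB0 hB0) hB0, padicValInt.mul hB0 hB0,
      padicValInt.mul (mul_ne_zero (by norm_num) hΔ) (pow_ne_zero _ hz0),
      padicValInt.mul (by norm_num) hΔ, padicValInt.eq_zero_of_not_dvd h110592, zero_add,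
      pow_two, padicValInt.mul hz0 hz0, padicValInt.eq_zero_of_not_dvd hz] at hv
    apply h3
    exact ⟨padicValInt p (z ^ 2 - c4), by omega⟩
  -- (c)
  have hc9 : (p : ℤ) ∣ 9 * c4 - z ^ 2 := by
    have h1 : (p : ℤ) ∣ (9 * c4 - z ^ 2) * (z ^ 2 - c4) ^ 3 := by
      rw [hI]
      exact Dvd.dvd.mul_right (Dvd.dvd.mul_left hpΔ _) _
    rcases hpp.dvd_or_dvd h1 with h | h
    · exact h
    · exact absurd (hpp.dvd_of_dvd_pow h) hb
  refine ⟨hz, ?_⟩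
  have h8' : (p : ℤ) ∣ 8 * (c6 * z - 3 * c4 ^ 2) := by
    have e : 8 * (c6 * z - 3 * c4 ^ 2) = -((9 * c4 - z ^ 2) * (z ^ 2 + 3 * c4)) := by
      linear_combination -hQ
    rw [e]
    exact (Dvd.dvd.mul_right hc9 _).neg_right
  rcases hpp.dvd_or_dvd h8' with h | h
  · exact absurd h h8
  · exact h

/-- Legendre-symbol form of the local analysis. -/
lemma legendre_at_prime {p : ℕ} [Fact p.Prime] (h5 : 5 ≤ p) {z c4 c6 Δ : ℤ}
    (hQ : z ^ 4 - 6 * c4 * z ^ 2 - 8 * c6 * z - 3 * c4 ^ 2 = 0)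
    (hc : 1728 * Δ = c4 ^ 3 - c6 ^ 2)
    (hΔ : Δ ≠ 0) (hpΔ : (p : ℤ) ∣ Δ) (hpc : ¬ (p : ℤ) ∣ c4) (h3 : ¬ 3 ∣ padicValInt p Δ) :
    ¬ (p : ℤ) ∣ z ∧ legendreSym p (3 * c6) * legendreSym p z = 1 := by
  have hp : p.Prime := Fact.out
  have hpp : Prime (p : ℤ) := Nat.prime_iff_prime_int.mp hp
  obtain ⟨hz, hdvd⟩ := local_at_prime hp h5 hQ hc hΔ hpΔ hpc h3
  refine ⟨hz, ?_⟩
  have h3c4 : ((3 * c4 : ℤ) : ZMod p) ≠ 0 := by
    intro h
    rw [ZMod.intCast_zmod_eq_zero_iff_dvd] at h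
    rcases hpp.dvd_or_dvd h with h | h
    · have : p ∣ 3 := by exact_mod_cast h
      have := Nat.le_of_dvd (by norm_num) this
      omega
    · exact hpc h
  rw [← legendreSym.mul]
  have e : ((3 * c6 * z : ℤ) : ZMod p) = (((3 * c4) ^ 2 : ℤ) : ZMod p) := by
    rw [ZMod.intCast_eq_intCast_iff_dvd_sub]
    have e2 : (3 * c4) ^ 2 - 3 * c6 * z = -(3 * (c6 * z - 3 * c4 ^ 2)) := by ring
    rw [e2]
    exact (Dvd.dvd.mul_left hdvd _).neg_right
  have h1 : legendreSym p (3 * c6 * z) = legendreSym p ((3 * c4) ^ 2) := by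
    unfold legendreSym
    rw [e]
  rw [h1]
  exact legendreSym.sq_one' p h3c4

/-! ### Global shape of a root -/

lemma pow_mul_cancel {l : ℤ} (hl : Prime l) {a b : ℕ} {A B : ℤ} (hA : ¬ l ∣ A) (hB : ¬ l ∣ B)
    (h : l ^ a * A = l ^ b * B) : a = b := by
  have hl0 : ∀ n : ℕ, l ^ n ≠ 0 := fun n => pow_ne_zero _ hl.ne_zero
  rcases lt_trichotomy a b with hab | hab | hab
  · exfalso
    obtain ⟨k, rfl⟩ : ∃ k, b = a + (k + 1) := ⟨b - a - 1, by omega⟩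
    have : A = l ^ (k + 1) * B := by
      apply mul_left_cancel₀ (hl0 a)
      rw [h]; ring
    apply hA
    rw [this, pow_succ]
    exact ⟨l ^ k * B, by ring⟩
  · exact hab
  · exfalso
    obtain ⟨k, rfl⟩ : ∃ k, a = b + (k + 1) := ⟨a - b - 1, by omega⟩
    have : B = l ^ (k + 1) * A := by
      apply mul_left_cancel₀ (hl0 b)
      rw [← h]; ring
    apply hB
    rw [this, pow_succ]
    exact ⟨l ^ k * A, by ring⟩

lemma exists_pow_mul {l : ℕ} [Fact l.Prime] {z : ℤ} (hz : z ≠ 0) :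
    ∃ z' : ℤ, z = (l : ℤ) ^ (padicValInt l z) * z' ∧ ¬ (l : ℤ) ∣ z' := by
  have hl : l.Prime := Fact.out
  have hfin : FiniteMultiplicity (l : ℤ) z := by
    rw [Int.finiteMultiplicity_iff]
    refine ⟨?_, hz⟩
    simp only [Int.natAbs_natCast]
    exact hl.ne_one
  obtain ⟨c, hc, hnd⟩ := hfin.exists_eq_pow_mul_and_not_dvd
  have hc0 : c ≠ 0 := fun h => hnd (h ▸ dvd_zero _)
  have hv : padicValInt l z = multiplicity (l : ℤ) z := by
    conv_lhs => rw [hc]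
    rw [padicValInt.mul (pow_ne_zero _ (by exact_mod_cast hl.ne_zero)) hc0,
      padicValInt.eq_zero_of_not_dvd hnd, add_zero]
    have : ((l : ℤ) ^ multiplicity (l : ℤ) z) = (((l ^ multiplicity (l : ℤ) z : ℕ)) : ℤ) := by
      push_cast; rfl
    rw [this, padicValInt.of_nat, padicValNat.prime_pow]
  exact ⟨c, by rw [hv]; exact hc, hnd⟩

/-- Valuations of the root at primes `≥ 5` are even. -/
lemma even_padicValInt_of_ge_five {l : ℕ} (hl : l.Prime) (h5 : 5 ≤ l) {z G Δ : ℤ} (hz : z ≠ 0)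
    (hΔ : Δ ≠ 0) (hI : 110592 * Δ * z ^ 2 = G ^ 3 * (8 * z ^ 2 - 9 * G))
    (hss : (l : ℤ) ∣ Δ → ¬ (l : ℤ) ∣ z ^ 2 - G) : Even (padicValInt l z) := by
  have : Fact l.Prime := ⟨hl⟩
  have hpp : Prime (l : ℤ) := Nat.prime_iff_prime_int.mp hl
  by_cases hlz : (l : ℤ) ∣ z
  swap
  · rw [padicValInt.eq_zero_of_not_dvd hlz]
    exact ⟨0, rfl⟩
  have h9 : ¬ (l : ℤ) ∣ 9 := by
    have := prime_not_dvd_two_pow_three_pow hl h5 0 2
    norm_num at this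
    exact this
  have h110592 : ¬ (l : ℤ) ∣ 110592 := by
    have := prime_not_dvd_two_pow_three_pow hl h5 12 3
    norm_num at this
    exact this
  have h8 : ¬ (l : ℤ) ∣ 8 := by
    have := prime_not_dvd_two_pow_three_pow hl h5 3 0
    norm_num at this
    exact this
  have hG : (l : ℤ) ∣ G := by
    by_contra hG
    have h1 : ¬ (l : ℤ) ∣ 8 * z ^ 2 - 9 * G := by
      intro h
      have : (l : ℤ) ∣ 9 * G := by
        have h2 : (l : ℤ) ∣ 8 * z ^ 2 := Dvd.dvd.mul_left (dvd_pow hlz two_ne_zero) _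
        have := dvd_sub h2 h
        simpa using this
      rcases hpp.dvd_or_dvd this with h | h
      · exact h9 h
      · exact hG h
    have h2 : (l : ℤ) ∣ G ^ 3 * (8 * z ^ 2 - 9 * G) := by
      rw [← hI]
      exact Dvd.dvd.mul_left (dvd_pow hlz two_ne_zero) _
    rcases hpp.dvd_or_dvd h2 with h | h
    · exact hG (hpp.dvd_of_dvd_pow h)
    · exact h1 h
  have hlΔ : ¬ (l : ℤ) ∣ Δ := fun h => hss h (dvd_sub (dvd_pow hlz two_ne_zero) hG)
  have hG0 : G ≠ 0 := by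
    intro h
    rw [h] at hI
    have : (110592 : ℤ) * Δ * z ^ 2 ≠ 0 := by positivity
    exact this (by rw [hI]; ring)
  obtain ⟨z', hz', hz'nd⟩ := exists_pow_mul (l := l) hz
  obtain ⟨G', hG', hG'nd⟩ := exists_pow_mul (l := l) hG0
  set e := padicValInt l z with he
  set r := padicValInt l G with hr
  have hr1 : 1 ≤ r := by
    by_contra h
    have h0 : r = 0 := by omega
    rw [h0, pow_zero, one_mul] at hG'
    exact hG'nd (hG' ▸ hG)
  have hA : ¬ (l : ℤ) ∣ 110592 * Δ * z' ^ 2 := by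
    intro h
    rcases hpp.dvd_or_dvd h with h | h
    · rcases hpp.dvd_or_dvd h with h | h
      · exact h110592 h
      · exact hlΔ h
    · exact hz'nd (hpp.dvd_of_dvd_pow h)
  rcases lt_or_ge r (2 * e) with hlt | hge
  · have key : (l : ℤ) ^ (2 * e) * (110592 * Δ * z' ^ 2) =
        (l : ℤ) ^ (4 * r) * (G' ^ 3 * (8 * (l : ℤ) ^ (2 * e - r) * z' ^ 2 - 9 * G')) := by
      have e1 : (l : ℤ) ^ (2 * e) = (l : ℤ) ^ r * (l : ℤ) ^ (2 * e - r) := by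
        rw [← pow_add]; congr 1; omega
      have e2 : (l : ℤ) ^ (4 * r) = ((l : ℤ) ^ r) ^ 3 * (l : ℤ) ^ r := by
        rw [← pow_mul, ← pow_add]; congr 1; omega
      have e3 : (l : ℤ) ^ (2 * e) = ((l : ℤ) ^ e) ^ 2 := by rw [← pow_mul, mul_comm]
      calc (l : ℤ) ^ (2 * e) * (110592 * Δ * z' ^ 2)
          = 110592 * Δ * ((l : ℤ) ^ e * z') ^ 2 := by rw [e3]; ring
        _ = 110592 * Δ * z ^ 2 := by rw [← hz']
        _ = G ^ 3 * (8 * z ^ 2 - 9 * G) := hI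
        _ = ((l : ℤ) ^ r * G') ^ 3 * (8 * ((l : ℤ) ^ e * z') ^ 2 - 9 * ((l : ℤ) ^ r * G')) := by
            rw [← hz', ← hG']
        _ = ((l : ℤ) ^ r) ^ 3 * G' ^ 3 * (8 * ((l : ℤ) ^ (2 * e)) * z' ^ 2
              - 9 * ((l : ℤ) ^ r * G')) := by rw [e3]; ring
        _ = (l : ℤ) ^ (4 * r) * (G' ^ 3 * (8 * (l : ℤ) ^ (2 * e - r) * z' ^ 2 - 9 * G')) := by
            rw [e1, e2]; ring
    have hB : ¬ (l : ℤ) ∣ G' ^ 3 * (8 * (l : ℤ) ^ (2 * e - r) * z' ^ 2 - 9 * G') := by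
      intro h
      rcases hpp.dvd_or_dvd h with h | h
      · exact hG'nd (hpp.dvd_of_dvd_pow h)
      · have h2 : (l : ℤ) ∣ 8 * (l : ℤ) ^ (2 * e - r) * z' ^ 2 :=
          Dvd.dvd.mul_right (Dvd.dvd.mul_left (dvd_pow_self _ (by omega)) _) _
        have : (l : ℤ) ∣ 9 * G' := by
          have := dvd_sub h2 h
          simpa using this
        rcases hpp.dvd_or_dvd this with h | h
        · exact h9 h
        · exact hG'nd h
    have := pow_mul_cancel hpp hA hB key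
    exact ⟨r, by omega⟩
  · exfalso
    have key : (l : ℤ) ^ (2 * e) * (110592 * Δ * z' ^ 2) =
        (l : ℤ) ^ (2 * e) * ((l : ℤ) ^ (3 * r) *
          (G' ^ 3 * (8 * z' ^ 2 - 9 * (l : ℤ) ^ (r - 2 * e) * G'))) := by
      have e1 : (l : ℤ) ^ r = (l : ℤ) ^ (2 * e) * (l : ℤ) ^ (r - 2 * e) := by
        rw [← pow_add]; congr 1; omega
      have e2 : (l : ℤ) ^ (3 * r) = ((l : ℤ) ^ r) ^ 3 := by rw [← pow_mul, mul_comm]
      have e3 : (l : ℤ) ^ (2 * e) = ((l : ℤ) ^ e) ^ 2 := by rw [← pow_mul, mul_comm]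
      calc (l : ℤ) ^ (2 * e) * (110592 * Δ * z' ^ 2)
          = 110592 * Δ * ((l : ℤ) ^ e * z') ^ 2 := by rw [e3]; ring
        _ = 110592 * Δ * z ^ 2 := by rw [← hz']
        _ = G ^ 3 * (8 * z ^ 2 - 9 * G) := hI
        _ = ((l : ℤ) ^ r * G') ^ 3 * (8 * ((l : ℤ) ^ e * z') ^ 2 - 9 * ((l : ℤ) ^ r * G')) := by
            rw [← hz', ← hG']
        _ = ((l : ℤ) ^ r) ^ 3 * G' ^ 3 * (8 * ((l : ℤ) ^ (2 * e)) * z' ^ 2
              - 9 * ((l : ℤ) ^ r * G')) := by rw [e3]; ring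
        _ = (l : ℤ) ^ (2 * e) * ((l : ℤ) ^ (3 * r) *
              (G' ^ 3 * (8 * z' ^ 2 - 9 * (l : ℤ) ^ (r - 2 * e) * G'))) := by
            rw [e2]
            nth_rewrite 2 [e1]
            ring
    have h2 := mul_left_cancel₀ (pow_ne_zero _ hpp.ne_zero) key
    apply hA
    rw [h2]
    exact Dvd.dvd.mul_right (dvd_pow_self _ (by omega)) _

/-- The `2`-adic shape of the root: `z = 4^r * z₁` with `z₁ ≡ 1 mod 4`. -/
lemma two_adic_shape {a₁ a₂ a₃ a₄ a₆ b₂ b₄ b₆ b₈ Δ y z : ℤ}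
    (hb2 : b₂ = a₁ ^ 2 + 4 * a₂) (hb4 : b₄ = 2 * a₄ + a₁ * a₃) (hb6 : b₆ = a₃ ^ 2 + 4 * a₆)
    (hb8 : 4 * b₈ = b₂ * b₆ - b₄ ^ 2)
    (hΔ : Δ = -b₂ ^ 2 * b₈ - 8 * b₄ ^ 3 - 27 * b₆ ^ 2 + 9 * b₂ * b₄ * b₆)
    (hss : (2 : ℤ) ∣ Δ → ¬ (2 : ℤ) ∣ b₂ ^ 2 - 24 * b₄)
    (hquart : y ^ 4 + b₂ * y ^ 3 + 9 * b₄ * y ^ 2 + 27 * b₆ * y + 27 * b₈ = 0)
    (hz : z = 4 * y + b₂) (hz0 : z ≠ 0) :
    ∃ (r : ℕ) (z₁ : ℤ), z = 4 ^ r * z₁ ∧ z₁ % 4 = 1 := by
  rcases Int.even_or_odd a₁ with ⟨k, hk⟩ | ⟨k, hk⟩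
  swap
  · refine ⟨0, z, by ring, ?_⟩
    have : z = 4 * (y + k ^ 2 + k + a₂) + 1 := by rw [hz, hb2, hk]; ring
    omega
  -- `a₁` even
  have hb2' : b₂ = 4 * (k ^ 2 + a₂) := by rw [hb2, hk]; ring
  have hb4' : b₄ = 2 * (a₄ + k * a₃) := by rw [hb4, hk]; ring
  have hΔodd : ¬ (2 : ℤ) ∣ Δ := by
    intro h
    apply hss h
    exact ⟨8 * (k ^ 2 + a₂) ^ 2 - 12 * b₄, by rw [hb2']; ring⟩
  have ha3 : Odd a₃ := by
    rcases Int.even_or_odd a₃ with ⟨m, hm⟩ | h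
    · exfalso
      apply hΔodd
      have hb6' : b₆ = 2 * (2 * m ^ 2 + 2 * a₆) := by rw [hb6, hm]; ring
      refine ⟨-2 * (2 * (k ^ 2 + a₂)) ^ 2 * b₈ - 4 * b₄ ^ 3 - 54 * (2 * m ^ 2 + 2 * a₆) ^ 2
        + 18 * (2 * (k ^ 2 + a₂)) * b₄ * (2 * m ^ 2 + 2 * a₆), ?_⟩
      rw [hΔ, hb6', hb2']; ring
    · exact h
  obtain ⟨m, hm⟩ := ha3
  set H₁ := 4 * y ^ 3 + 3 * b₂ * y ^ 2 + 18 * b₄ * y + 27 * b₆ with hH₁
  set G₁ := 2 * y ^ 2 + b₂ * y + 3 * b₄ with hG₁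
  have hzH : z * H₁ = 3 * G₁ ^ 2 := by
    rw [hz, hH₁, hG₁]
    linear_combination 4 * hquart - 27 * hb8
  obtain ⟨T, hT⟩ : ∃ T : ℤ, H₁ = 4 * T + 3 := by
    refine ⟨y ^ 3 + 3 * (k ^ 2 + a₂) * y ^ 2 + 9 * (a₄ + k * a₃) * y
      + 27 * (m ^ 2 + m + a₆) + 6, ?_⟩
    rw [hH₁, hb2', hb4', hb6, hm]; ring
  have hH0 : H₁ ≠ 0 := by omega
  have hG0 : G₁ ≠ 0 := by
    intro h
    rw [h] at hzH
    have : z * H₁ ≠ 0 := mul_ne_zero hz0 hH0
    exact this (by rw [hzH]; ring)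
  have hfin : FiniteMultiplicity (2 : ℤ) G₁ := by
    rw [Int.finiteMultiplicity_iff]
    exact ⟨by decide, hG0⟩
  obtain ⟨G₂, hG₂, hG₂nd⟩ := hfin.exists_eq_pow_mul_and_not_dvd
  set r := multiplicity (2 : ℤ) G₁ with hr
  have hcop : IsCoprime ((4 : ℤ) ^ r) H₁ := by
    have h2 : IsCoprime (2 : ℤ) H₁ := by
      refine ⟨-(2 * T + 1), 1, ?_⟩
      rw [hT]; ring
    have : (4 : ℤ) ^ r = 2 ^ (2 * r) := by rw [pow_mul]; norm_num
    rw [this]
    exact h2.pow_left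
  have hdvd : (4 : ℤ) ^ r ∣ z := by
    apply hcop.dvd_of_dvd_mul_right
    rw [hzH, hG₂]
    refine ⟨3 * G₂ ^ 2, ?_⟩
    have : (4 : ℤ) ^ r = (2 ^ r) ^ 2 := by rw [← pow_mul, mul_comm, pow_mul]; norm_num
    rw [this]; ring
  obtain ⟨z₁, hz₁⟩ := hdvd
  refine ⟨r, z₁, hz₁, ?_⟩
  have h4 : (4 : ℤ) ^ r ≠ 0 := by positivity
  have hzH' : z₁ * H₁ = 3 * G₂ ^ 2 := by
    apply mul_left_cancel₀ h4
    have : (4 : ℤ) ^ r = (2 ^ r) ^ 2 := by rw [← pow_mul, mul_comm, pow_mul]; norm_num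
    calc (4 : ℤ) ^ r * (z₁ * H₁) = z * H₁ := by rw [hz₁]; ring
      _ = 3 * G₁ ^ 2 := hzH
      _ = 3 * ((2 : ℤ) ^ r * G₂) ^ 2 := by rw [← hG₂]
      _ = (4 : ℤ) ^ r * (3 * G₂ ^ 2) := by rw [this]; ring
  have hG₂odd : Odd G₂ := by
    rcases Int.even_or_odd G₂ with ⟨j, hj⟩ | h
    · exact absurd ⟨j, by rw [hj]; ring⟩ hG₂nd
    · exact h
  obtain ⟨j, hj⟩ := hG₂odd
  have e1 : 4 * (z₁ * T) + 3 * z₁ = 12 * (j ^ 2 + j) + 3 := by
    have : z₁ * H₁ = 3 * G₂ ^ 2 := hzH'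
    rw [hT, hj] at this
    linear_combination this
  omega

/-- A nonzero integer with even valuations at all primes `≥ 5` and the right `2`-adic shape is a
square or `-3` times a square. -/
lemma square_or_neg_three_square {z : ℤ} (_hz : z ≠ 0) {r : ℕ} {z₁ : ℤ} (hz₁ : z = 4 ^ r * z₁)
    (hmod : z₁ % 4 = 1) (heven : ∀ l : ℕ, l.Prime → 5 ≤ l → Even (padicValInt l z)) :
    ∃ n : ℤ, n ≠ 0 ∧ (z = n ^ 2 ∨ z = -3 * n ^ 2) := by
  have hz₁0 : z₁ ≠ 0 := by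
    intro h
    rw [h] at hmod
    norm_num at hmod
  set N := z₁.natAbs with hN
  have hN0 : N ≠ 0 := Int.natAbs_ne_zero.mpr hz₁0
  obtain ⟨s, b, hb, hs⟩ := Nat.sq_mul_squarefree N
  have hb0 : b ≠ 0 := by
    rintro rfl
    simp at hb
    exact hN0 hb.symm
  have hs0 : s ≠ 0 := by
    rintro rfl
    simp at hb
    exact hN0 hb.symm
  have hNodd : N % 2 = 1 := by
    rw [hN]
    omega
  have hbodd : b % 2 = 1 := by
    by_contra h
    have h0 : b % 2 = 0 := by omega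
    have : 2 ∣ N := by
      rw [← hb]
      exact Dvd.dvd.mul_right (dvd_pow (Nat.dvd_of_mod_eq_zero h0) two_ne_zero) _
    omega
  have hnatAbs : z.natAbs = 4 ^ r * N := by
    rw [hz₁, Int.natAbs_mul, Int.natAbs_pow]
    rfl
  have hprime3 : ∀ l : ℕ, l.Prime → l ∣ s → l = 3 := by
    intro l hl hls
    by_contra h3
    have hlN : l ∣ N := by rw [← hb]; exact Dvd.dvd.mul_left hls _
    have hl2 : l ≠ 2 := by
      rintro rfl
      omega
    have hl5 : 5 ≤ l := by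
      have h2 := hl.two_le
      by_contra hlt
      have : l = 4 := by omega
      rw [this] at hl
      exact absurd hl (by decide)
    have hev := heven l hl hl5
    have : Fact l.Prime := ⟨hl⟩
    have hv : padicValInt l z = 2 * padicValNat l b + 1 := by
      unfold padicValInt
      rw [hnatAbs, padicValNat.mul (by positivity) hN0, ← hb,
        padicValNat.mul (by positivity) hs0, padicValNat.pow b 2]
      have h4 : padicValNat l (4 ^ r) = 0 := by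
        apply padicValNat.eq_zero_of_not_dvd
        intro h
        have := hl.dvd_of_dvd_pow h
        have hle := Nat.le_of_dvd (by norm_num) this
        omega
      have hs1 : padicValNat l s = 1 := by
        have h1 : s.factorization l ≤ 1 := hs.natFactorization_le_one l
        have h2 : 0 < s.factorization l := hl.factorization_pos_of_dvd hs0 hls
        rw [Nat.factorization_def s hl] at h1 h2
        omega
      rw [h4, hs1]
      ring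
    rw [hv] at hev
    rcases hev with ⟨c, hc⟩
    omega
  have hs13 : s = 1 ∨ s = 3 := by
    by_cases h3 : 3 ∣ s
    · right
      obtain ⟨s', rfl⟩ := h3
      have hs'1 : s' = 1 := by
        rw [Nat.eq_one_iff_not_exists_prime_dvd]
        intro l hl hls'
        have := hprime3 l hl (Dvd.dvd.mul_left hls' _)
        subst this
        obtain ⟨s'', rfl⟩ := hls'
        have h9 : 3 * 3 ∣ 3 * (3 * s'') := ⟨s'', by ring⟩
        have := hs 3 h9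
        simp at this
      rw [hs'1]
    · left
      rw [Nat.eq_one_iff_not_exists_prime_dvd]
      intro l hl hls
      have := hprime3 l hl hls
      subst this
      exact h3 hls
  obtain ⟨j, hj⟩ : ∃ j : ℤ, (b : ℤ) = 2 * j + 1 := ⟨(b : ℤ) / 2, by omega⟩
  have hb2 : (b : ℤ) ^ 2 = 4 * (j ^ 2 + j) + 1 := by rw [hj]; ring
  have hNz : (N : ℤ) = (b : ℤ) ^ 2 * s := by exact_mod_cast hb.symm
  refine ⟨2 ^ r * b, by positivity, ?_⟩
  have h4 : (4 : ℤ) ^ r = (2 ^ r) ^ 2 := by rw [← pow_mul, mul_comm, pow_mul]; norm_num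
  rcases hs13 with rfl | rfl
  · left
    have : z₁ = (b : ℤ) ^ 2 := by
      rcases Int.natAbs_eq z₁ with h | h
      · rw [h, ← hN, hNz]; simp
      · exfalso
        rw [← hN, hNz] at h
        simp at h
        omega
    rw [hz₁, this, h4]; ring
  · right
    have : z₁ = -3 * (b : ℤ) ^ 2 := by
      rcases Int.natAbs_eq z₁ with h | h
      · exfalso
        rw [← hN, hNz] at h
        push_cast at h
        omega
      · rw [h, ← hN, hNz]; push_cast; ring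
    rw [hz₁, this, h4]; ring


/-! ### The criterion -/

/-- The monic integer quartic satisfied by `y = 3 x` for a root `x` of `ψ₃`. -/
noncomputable def yPoly (b₂ b₄ b₆ b₈ : ℤ) : Polynomial ℤ :=
  Polynomial.X ^ 4 + Polynomial.C b₂ * Polynomial.X ^ 3 + Polynomial.C (9 * b₄) * Polynomial.X ^ 2
    + Polynomial.C (27 * b₆) * Polynomial.X + Polynomial.C (27 * b₈)

lemma yPoly_monic (b₂ b₄ b₆ b₈ : ℤ) : (yPoly b₂ b₄ b₆ b₈).Monic := by
  unfold yPoly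
  monicity!

/-- An integer root `z` of the quartic `Z⁴ - 6 c₄ Z² - 8 c₆ Z - 3 c₄²` of an integral model is of the
form `4 y + b₂` with `y` an integer root of `yPoly`. -/
lemma exists_y (W : WeierstrassCurve ℤ) {z : ℤ}
    (hQ : z ^ 4 - 6 * W.c₄ * z ^ 2 - 8 * W.c₆ * z - 3 * W.c₄ ^ 2 = 0) :
    ∃ y : ℤ, z = 4 * y + W.b₂ ∧
      y ^ 4 + W.b₂ * y ^ 3 + 9 * W.b₄ * y ^ 2 + 27 * W.b₆ * y + 27 * W.b₈ = 0 := by
  set Y : ℚ := ((z : ℚ) - W.b₂) / 4 with hY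
  have hz : (z : ℚ) = 4 * Y + W.b₂ := by rw [hY]; ring
  have hQ' : (z : ℚ) ^ 4 - 6 * W.c₄ * (z : ℚ) ^ 2 - 8 * W.c₆ * (z : ℚ) - 3 * (W.c₄ : ℚ) ^ 2 = 0 := by
    exact_mod_cast hQ
  have hYroot : Y ^ 4 + W.b₂ * Y ^ 3 + 9 * W.b₄ * Y ^ 2 + 27 * W.b₆ * Y + 27 * W.b₈ = 0 := by
    have h8 : (4 * W.b₈ : ℚ) = W.b₂ * W.b₆ - W.b₄ ^ 2 := by exact_mod_cast W.b_relation
    have hc4 : (W.c₄ : ℚ) = W.b₂ ^ 2 - 24 * W.b₄ := by
      simp only [WeierstrassCurve.c₄]; push_cast; ring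
    have hc6 : (W.c₆ : ℚ) = -W.b₂ ^ 3 + 36 * W.b₂ * W.b₄ - 216 * W.b₆ := by
      simp only [WeierstrassCurve.c₆]; push_cast; ring
    rw [hz, hc4, hc6] at hQ'
    have e : (256 : ℚ) * (Y ^ 4 + W.b₂ * Y ^ 3 + 9 * W.b₄ * Y ^ 2 + 27 * W.b₆ * Y + 27 * W.b₈) = 0 := by
      linear_combination hQ' + 1728 * h8
    exact (mul_eq_zero.mp e).resolve_left (by norm_num)
  have hr : Polynomial.aeval Y (yPoly W.b₂ W.b₄ W.b₆ W.b₈) = 0 := by
    simp only [yPoly, map_add, map_mul, map_pow, Polynomial.aeval_X, eq_intCast, map_intCast,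
      map_ofNat]
    linear_combination hYroot
  obtain ⟨y, hy⟩ := isInteger_of_is_root_of_monic (yPoly_monic W.b₂ W.b₄ W.b₆ W.b₈) hr
  have hy' : (y : ℚ) = Y := by simpa using hy
  refine ⟨y, ?_, ?_⟩
  · have : (z : ℚ) = ((4 * y + W.b₂ : ℤ) : ℚ) := by rw [hz, ← hy']; push_cast; ring
    exact_mod_cast this
  · have : ((y ^ 4 + W.b₂ * y ^ 3 + 9 * W.b₄ * y ^ 2 + 27 * W.b₆ * y + 27 * W.b₈ : ℤ) : ℚ) = 0 := by
      rw [← hYroot, ← hy']; push_cast; ring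
    exact_mod_cast this

/-- **Criterion.** Let `W` be a semistable integral model with `Δ ≠ 0`, and let `p₁, p₂ ≥ 5` be
primes dividing `Δ` to an order prime to `3` such that `3 c₆` is a non-residue modulo `p₁` and
`-c₆` is a non-residue modulo `p₂`.  Then the quartic `Z⁴ - 6 c₄ Z² - 8 c₆ Z - 3 c₄²` (the
`3`-division polynomial in the variable `Z = 12 x + b₂`) has no integer root. -/
theorem no_int_root (W : WeierstrassCurve ℤ) (hΔ : W.Δ ≠ 0) (hss : W.IsSemistableModel)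
    (p₁ p₂ : ℕ) [Fact p₁.Prime] [Fact p₂.Prime] (h5₁ : 5 ≤ p₁) (h5₂ : 5 ≤ p₂)
    (hd₁ : (p₁ : ℤ) ∣ W.Δ) (hd₂ : (p₂ : ℤ) ∣ W.Δ)
    (hv₁ : ¬ 3 ∣ padicValInt p₁ W.Δ) (hv₂ : ¬ 3 ∣ padicValInt p₂ W.Δ)
    (hl₁ : legendreSym p₁ (3 * W.c₆) = -1) (hl₂ : legendreSym p₂ (-W.c₆) = -1) :
    ∀ z : ℤ, z ^ 4 - 6 * W.c₄ * z ^ 2 - 8 * W.c₆ * z - 3 * W.c₄ ^ 2 ≠ 0 := by
  intro z hQ
  have hp₁ : p₁.Prime := Fact.out
  have hp₂ : p₂.Prime := Fact.out
  have hc := W.c_relation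
  have hc4₁ : ¬ (p₁ : ℤ) ∣ W.c₄ := hss p₁ hp₁ hd₁
  have hc4₂ : ¬ (p₂ : ℤ) ∣ W.c₄ := hss p₂ hp₂ hd₂
  have hz0 : z ≠ 0 := by
    rintro rfl
    apply hc4₁
    have : W.c₄ ^ 2 = 0 := by linarith
    rw [pow_eq_zero_iff (by norm_num) |>.mp this]
    exact dvd_zero _
  obtain ⟨y, hzy, hy⟩ := exists_y W hQ
  have hI := key_identity hQ hc
  -- the `2`-adic shape
  obtain ⟨r, z₁, hz₁, hmod⟩ := two_adic_shape (a₁ := W.a₁) (a₂ := W.a₂) (a₃ := W.a₃) (a₄ := W.a₄)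
    (a₆ := W.a₆) (b₂ := W.b₂) (b₄ := W.b₄) (b₆ := W.b₆) (b₈ := W.b₈) (Δ := W.Δ) (y := y) (z := z)
    (by simp only [WeierstrassCurve.b₂]) (by simp only [WeierstrassCurve.b₄])
    (by simp only [WeierstrassCurve.b₆]) W.b_relation
    (by simp only [WeierstrassCurve.Δ])
    (fun h2 => by
      have := hss 2 Nat.prime_two (by exact_mod_cast h2)
      simpa only [WeierstrassCurve.c₄, Nat.cast_ofNat] using this)
    hy hzy hz0
  -- even valuations at primes `≥ 5`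
  have heven : ∀ l : ℕ, l.Prime → 5 ≤ l → Even (padicValInt l z) := by
    intro l hl h5
    refine even_padicValInt_of_ge_five hl h5 (G := z ^ 2 - W.c₄) hz0 hΔ ?_ ?_
    · linear_combination -hI
    · intro hlΔ
      have := hss l hl hlΔ
      have e : z ^ 2 - (z ^ 2 - W.c₄) = W.c₄ := by ring
      rw [e]
      exact this
  obtain ⟨n, hn0, hn⟩ := square_or_neg_three_square hz0 hz₁ hmod heven
  rcases hn with hn | hn
  · -- `z = n²`
    obtain ⟨hpz, hleg⟩ := legendre_at_prime h5₁ hQ hc hΔ hd₁ hc4₁ hv₁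
    have hpn : ((n : ℤ) : ZMod p₁) ≠ 0 := by
      intro h
      rw [ZMod.intCast_zmod_eq_zero_iff_dvd] at h
      apply hpz
      rw [hn]
      exact Dvd.dvd.pow h (by norm_num)
    rw [hn, legendreSym.sq_one' p₁ hpn, mul_one, hl₁] at hleg
    norm_num at hleg
  · -- `z = -3 n²`
    obtain ⟨hpz, hleg⟩ := legendre_at_prime h5₂ hQ hc hΔ hd₂ hc4₂ hv₂
    have hpp : Prime (p₂ : ℤ) := Nat.prime_iff_prime_int.mp hp₂
    have hpn : (((3 * n : ℤ)) : ZMod p₂) ≠ 0 := by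
      intro h
      rw [ZMod.intCast_zmod_eq_zero_iff_dvd] at h
      rcases hpp.dvd_or_dvd h with h | h
      · have : p₂ ∣ 3 := by exact_mod_cast h
        have := Nat.le_of_dvd (by norm_num) this
        omega
      · apply hpz
        rw [hn]
        exact Dvd.dvd.mul_left (Dvd.dvd.pow h (by norm_num)) _
    rw [← legendreSym.mul] at hleg
    have e : 3 * W.c₆ * z = -W.c₆ * (3 * n) ^ 2 := by rw [hn]; ring
    rw [e, legendreSym.mul, legendreSym.sq_one' p₂ hpn, mul_one, hl₂] at hleg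
    norm_num at hleg

end Fermat.Agent.S52.Irr.Criterion
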