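import Mathlib
import Fermat.Agent.S14.Analytic.PrimeSums
import Fermat.Agent.S52.Irr.QuadSplit

/-!
# S52, brick (Irr3), insurance route: non-residue primes

* `exists_nonresidue_prime`: for a number field `F` and a non-square `β ∈ 𝓞 F`, outside every
  finite set of primes there is a prime of `𝓞 F` of prime norm modulo which `β` is not a square.
  (Comparison of the prime sums of `F` and `F(√β)` near `s = 1`, on top of the landed
  `S14.Analytic.PrimeSums`.)
* `exists_prime_nonresidue`: for `m, c ∈ ℤ[X]`, `m` monic, and a real root `θ` of `m` with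
  `c(θ) < 0`: for every bound `B` there are a prime `p > B` and an integer `k` with `p ∣ m(k)` and
  `c(k)` not a square modulo `p`.
-/

set_option autoImplicit false

universe u

open scoped NumberField nonZeroDivisors
open Polynomial NumberField IsDedekindDomain

namespace Fermat.Agent.S52.Irr.NonResidue

open Fermat.Agent.S14.Analytic

/-- Each prime term is at most `1`. -/
theorem term_le_one {F : Type*} [Field F] [NumberField F] (v : HeightOneSpectrum (𝓞 F)) {s : ℝ}
    (hs : 0 ≤ s) : ((Ideal.absNorm v.asIdeal : ℕ) : ℝ) ^ (-s) ≤ 1 := by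
  have h1 : (1 : ℝ) ≤ ((Ideal.absNorm v.asIdeal : ℕ) : ℝ) := by
    have h0 : Ideal.absNorm v.asIdeal ≠ 0 := by
      rw [Ne, Ideal.absNorm_eq_zero_iff]
      exact v.ne_bot
    exact_mod_cast Nat.one_le_iff_ne_zero.mpr h0
  exact Real.rpow_le_one_of_one_le_of_nonpos h1 (by linarith)

/-- **Non-residue primes.** For a non-square `β ∈ 𝓞 F`, outside every finite set of primes there
is a prime of prime norm modulo which `β` is not a square. -/
theorem exists_nonresidue_prime {F : Type u} [Field F] [NumberField F] (β : 𝓞 F)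
    (hβ : ¬ ∃ t : F, (β : F) = t ^ 2) (T₀ : Finset (HeightOneSpectrum (𝓞 F))) :
    ∃ v : HeightOneSpectrum (𝓞 F), v ∉ T₀ ∧ (Ideal.absNorm v.asIdeal).Prime ∧
      ¬ ∃ t : 𝓞 F, β - t ^ 2 ∈ v.asIdeal := by
  classical
  by_contra hcon
  push Not at hcon
  have : Fact (Nat.Prime 2) := ⟨Nat.prime_two⟩
  have hζ : IsPrimitiveRoot (-1 : F) 2 := IsPrimitiveRoot.neg_one 0 (by norm_num)
  obtain ⟨M, iF, iN, iA, -, hM⟩ := QuadSplit.exists_field_sum (p := 2) hζ β hβ
  obtain ⟨CK, hCK⟩ := PrimeSums.prime_sum_bound F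
  obtain ⟨CM, hCM⟩ := PrimeSums.prime_sum_bound M
  obtain ⟨Cnp, hCnp⟩ := PrimeSums.nonprime_norm_bound F
  have hβ0 : β ≠ 0 := by
    rintro rfl
    exact hβ ⟨0, by simp⟩
  have h2β : Ideal.span {(2 : 𝓞 F) * β} ≠ 0 := by
    rw [Ne, Ideal.zero_eq_bot, Ideal.span_singleton_eq_bot]
    exact mul_ne_zero two_ne_zero hβ0
  have hfin : {v : HeightOneSpectrum (𝓞 F) | v.asIdeal ∣ Ideal.span {(2 : 𝓞 F) * β}}.Finite :=
    Ideal.finite_factors h2β
  set Tb : Finset (HeightOneSpectrum (𝓞 F)) := T₀ ∪ hfin.toFinset with hTb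
  set nb : ℝ := (Tb.card : ℝ) with hnb
  set R : ℝ := 2 * CK + CM + 2 * (Cnp + nb) with hR
  have main : ∀ s : ℝ, 1 < s → s ≤ 2 → Real.log (1 / (s - 1)) ≤ R := by
    intro s hs1 hs2
    set a : HeightOneSpectrum (𝓞 F) → ℝ := fun v => ((Ideal.absNorm v.asIdeal : ℕ) : ℝ) ^ (-s)
      with ha
    set aM : HeightOneSpectrum (𝓞 M) → ℝ := fun w => ((Ideal.absNorm w.asIdeal : ℕ) : ℝ) ^ (-s)
      with haM
    have ha0 : ∀ v, 0 ≤ a v := fun v => Real.rpow_nonneg (Nat.cast_nonneg _) _
    have haM0 : ∀ w, 0 ≤ aM w := fun w => Real.rpow_nonneg (Nat.cast_nonneg _) _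
    have hsa : Summable a := PrimeSums.summable_primes F hs1
    have hsaM : Summable aM := PrimeSums.summable_primes M hs1
    set PK : ℝ := ∑' v, a v with hPK
    set PM : ℝ := ∑' w, aM w with hPM
    have hPKle : PK ≤ PM / 2 + Cnp + nb := by
      rw [hPK]
      refine Real.tsum_le_of_sum_le ha0 fun T => ?_
      set T1 : Finset (HeightOneSpectrum (𝓞 F)) := T.filter fun v =>
        (Ideal.absNorm v.asIdeal).Prime ∧ v ∉ Tb with hT1
      set T2 : Finset (HeightOneSpectrum (𝓞 F)) := T.filter fun v =>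
        ¬ (Ideal.absNorm v.asIdeal).Prime with hT2
      set T3 : Finset (HeightOneSpectrum (𝓞 F)) := T.filter fun v => v ∈ Tb with hT3
      have hpt : ∀ v ∈ T, a v ≤
          (if (Ideal.absNorm v.asIdeal).Prime ∧ v ∉ Tb then a v else 0) +
          (if ¬ (Ideal.absNorm v.asIdeal).Prime then a v else 0) +
          (if v ∈ Tb then a v else 0) := by
        intro v _
        have := ha0 v
        by_cases h2 : (Ideal.absNorm v.asIdeal).Prime <;> by_cases h3 : v ∈ Tb <;>
          simp [h2, h3, this]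
      have hsum := Finset.sum_le_sum hpt
      rw [Finset.sum_add_distrib, Finset.sum_add_distrib, ← Finset.sum_filter, ← Finset.sum_filter,
        ← Finset.sum_filter] at hsum
      have h1 : ∑ v ∈ T1, a v ≤ PM / 2 := by
        obtain ⟨T', -, hT'⟩ := hM T1 (fun v hv => by
          rw [hT1, Finset.mem_filter] at hv
          obtain ⟨-, hprime, hnot⟩ := hv
          have hv0 : v ∉ T₀ := fun h => hnot (Finset.mem_union_left _ h)
          have hvb : ¬ v.asIdeal ∣ Ideal.span {(2 : 𝓞 F) * β} := fun h =>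
            hnot (Finset.mem_union_right _ ((Set.Finite.mem_toFinset hfin).mpr h))
          rw [Ideal.dvd_span_singleton] at hvb
          refine ⟨?_, ?_, hcon v hv0 hprime⟩
          · intro h2
            apply hvb
            have e : ((2 : ℕ) : 𝓞 F) = 2 := by norm_num
            rw [e] at h2
            exact v.asIdeal.mul_mem_right _ h2
          · intro hb
            exact hvb (v.asIdeal.mul_mem_left _ hb))
        have h := hT' (fun n => ((n : ℕ) : ℝ) ^ (-s))
        have h' : ∑ w ∈ T', aM w ≤ PM := hsaM.sum_le_tsum T' (fun w _ => haM0 w)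
        rw [le_div_iff₀ (by norm_num : (0 : ℝ) < 2), mul_comm]
        have h2' : ∑ w ∈ T', aM w = 2 * ∑ v ∈ T1, a v := by
          have e : (((2 : ℕ) : ℝ)) = 2 := by norm_num
          rw [← e]
          exact h
        calc (2 : ℝ) * ∑ v ∈ T1, a v = ∑ w ∈ T', aM w := h2'.symm
          _ ≤ PM := h'
      have h2 : ∑ v ∈ T2, a v ≤ Cnp := hCnp s hs1 T2 (fun w hw => by
        rw [hT2, Finset.mem_filter] at hw
        exact hw.2)
      have h3 : ∑ v ∈ T3, a v ≤ nb := by
        calc ∑ v ∈ T3, a v ≤ ∑ v ∈ T3, (1 : ℝ) :=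
              Finset.sum_le_sum fun v _ => term_le_one v (by linarith)
          _ = (T3.card : ℝ) := by simp
          _ ≤ nb := by
              rw [hnb]
              exact_mod_cast Finset.card_le_card (fun v hv => (Finset.mem_filter.mp hv).2)
      linarith
    have hK := abs_le.mp (hCK s hs1 hs2)
    have hMb := abs_le.mp (hCM s hs1 hs2)
    rw [hR]
    linarith [hK.1, hMb.2]
  -- contradiction at `s = 1 + exp (-(R' + 1))`
  set R' : ℝ := max R 0 with hR'
  have hR'0 : 0 ≤ R' := le_max_right _ _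
  have hRR' : R ≤ R' := le_max_left _ _
  have hs1 : 1 < 1 + Real.exp (-(R' + 1)) := by linarith [Real.exp_pos (-(R' + 1))]
  have hs2 : 1 + Real.exp (-(R' + 1)) ≤ 2 := by
    have : Real.exp (-(R' + 1)) ≤ 1 := Real.exp_le_one_iff.mpr (by linarith)
    linarith
  have hlog : Real.log (1 / (1 + Real.exp (-(R' + 1)) - 1)) = R' + 1 := by
    rw [add_sub_cancel_left, one_div, Real.log_inv, Real.log_exp, neg_neg]
  have h := main _ hs1 hs2
  rw [hlog] at h
  linarith

/-- In a finite ring whose cardinality is a prime, every element is the image of an integer. -/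
theorem exists_intCast_eq_of_prime_card {A : Type*} [Ring A] [Nontrivial A]
    (h : (Nat.card A).Prime) (x : A) : ∃ k : ℤ, (k : A) = x := by
  have : Fact (Nat.card A).Prime := ⟨h⟩
  have h1 : AddSubgroup.zmultiples (1 : A) = ⊤ := by
    rcases AddSubgroup.eq_bot_or_eq_top_of_prime_card (AddSubgroup.zmultiples (1 : A)) with h0 | h0
    · exfalso
      have : (1 : A) ∈ AddSubgroup.zmultiples (1 : A) := AddSubgroup.mem_zmultiples 1
      rw [h0, AddSubgroup.mem_bot] at this
      exact one_ne_zero this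
    · exact h0
  have hx : x ∈ AddSubgroup.zmultiples (1 : A) := by rw [h1]; trivial
  obtain ⟨k, hk⟩ := AddSubgroup.mem_zmultiples_iff.mp hx
  exact ⟨k, by rw [← hk]; simp⟩

/-- **Non-residue primes for polynomial values.** Let `m, c ∈ ℤ[X]` with `m` monic, and let `θ` be
a real root of `m` with `c(θ) < 0`.  Then for every bound `B` there are a prime `p > B` and an
integer `k` with `p ∣ m(k)` and `c(k)` a non-square modulo `p`. -/
theorem exists_prime_nonresidue (m c : ℤ[X]) (hm : m.Monic) (θ : ℝ) (hθ : aeval θ m = 0)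
    (hc : aeval θ c < 0) (B : ℕ) :
    ∃ (p : ℕ) (k : ℤ), p.Prime ∧ B < p ∧ (p : ℤ) ∣ m.eval k ∧
      ¬ IsSquare ((c.eval k : ℤ) : ZMod p) := by
  classical
  have hint : IsIntegral ℤ θ := ⟨m, hm, hθ⟩
  have hintQ : IsIntegral ℚ θ := hint.tower_top
  let F : IntermediateField ℚ ℝ := IntermediateField.adjoin ℚ ({θ} : Set ℝ)
  have : FiniteDimensional ℚ F := IntermediateField.adjoin.finiteDimensional hintQ
  have : NumberField F := { to_charZero := inferInstance, to_finiteDimensional := inferInstance }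
  let θF : F := ⟨θ, IntermediateField.mem_adjoin_simple_self ℚ θ⟩
  have hinjF : Function.Injective (algebraMap F ℝ) := (algebraMap F ℝ).injective
  have hθF : IsIntegral ℤ θF := (isIntegral_algebraMap_iff hinjF).mp hint
  let Θ : 𝓞 F := ⟨θF, hθF⟩
  have hval : ∀ q : ℤ[X], algebraMap F ℝ (algebraMap (𝓞 F) F (aeval Θ q)) = aeval θ q := by
    intro q
    rw [← aeval_algebraMap_apply, ← aeval_algebraMap_apply]
    rfl
  have hinjO : Function.Injective (algebraMap (𝓞 F) F) := RingOfIntegers.coe_injective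
  have hmΘ : aeval Θ m = 0 := by
    apply hinjO
    apply hinjF
    rw [hval, hθ, map_zero, map_zero]
  set β : 𝓞 F := aeval Θ c with hβdef
  have hβ : ¬ ∃ t : F, (β : F) = t ^ 2 := by
    rintro ⟨t, ht⟩
    have h1 : algebraMap F ℝ (algebraMap (𝓞 F) F β) = (algebraMap F ℝ t) ^ 2 := by
      rw [← map_pow]
      exact congrArg _ ht
    rw [hval] at h1
    rw [h1] at hc
    nlinarith [sq_nonneg (algebraMap F ℝ t)]
  -- the finite set of primes of norm `≤ B`
  have hfinB : {v : HeightOneSpectrum (𝓞 F) | Ideal.absNorm v.asIdeal ≤ B}.Finite := by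
    have h1 : {I : Ideal (𝓞 F) | Ideal.absNorm I ≤ B}.Finite := Ideal.finite_setOfPred_absNorm_le B
    refine Set.Finite.of_finite_image (f := HeightOneSpectrum.asIdeal) (h1.subset ?_) ?_
    · rintro _ ⟨v, hv, rfl⟩
      exact hv
    · intro v _ w _ hvw
      exact HeightOneSpectrum.ext hvw
  obtain ⟨v, hvT, hvprime, hvnon⟩ := exists_nonresidue_prime β hβ hfinB.toFinset
  set p := Ideal.absNorm v.asIdeal with hp
  have hpB : B < p := by
    by_contra h
    exact hvT ((Set.Finite.mem_toFinset hfinB).mpr (not_lt.mp h))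
  -- the residue ring has `p` elements
  have hcard : (Nat.card (𝓞 F ⧸ v.asIdeal)).Prime := by
    rw [← Submodule.cardQuot_apply, ← Ideal.absNorm_apply]
    exact hvprime
  have : Nontrivial (𝓞 F ⧸ v.asIdeal) := Ideal.Quotient.nontrivial_iff.mpr v.isPrime.ne_top
  obtain ⟨k, hk⟩ := exists_intCast_eq_of_prime_card hcard (Ideal.Quotient.mk v.asIdeal Θ)
  have hkv : Θ - (k : 𝓞 F) ∈ v.asIdeal := by
    rw [← Ideal.Quotient.eq, map_intCast]
    exact hk.symm
  -- polynomial congruences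
  have hcong : ∀ q : ℤ[X], aeval Θ q - ((q.eval k : ℤ) : 𝓞 F) ∈ v.asIdeal := by
    intro q
    have h1 := sub_dvd_eval_sub Θ (k : 𝓞 F) (q.map (algebraMap ℤ (𝓞 F)))
    have e1 : eval Θ (q.map (algebraMap ℤ (𝓞 F))) = aeval Θ q := by
      rw [eval_map, aeval_def]
    have e2 : eval (k : 𝓞 F) (q.map (algebraMap ℤ (𝓞 F))) = ((q.eval k : ℤ) : 𝓞 F) := by
      rw [eval_map, ← aeval_def]
      have := aeval_algebraMap_apply_eq_algebraMap_eval (A := 𝓞 F) k q
      simpa using this
    rw [e1, e2] at h1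
    exact Ideal.mem_of_dvd _ h1 hkv
  have hpv : ((p : ℤ) : 𝓞 F) ∈ v.asIdeal := by
    have := Ideal.absNorm_mem v.asIdeal
    exact_mod_cast this
  refine ⟨p, k, hvprime, hpB, ?_, ?_⟩
  · -- `p ∣ m(k)`
    have h1 : ((m.eval k : ℤ) : 𝓞 F) ∈ v.asIdeal := by
      have := hcong m
      rw [hmΘ, zero_sub] at this
      exact (Ideal.neg_mem_iff _).mp this
    by_contra hnd
    have hcop : IsCoprime (p : ℤ) (m.eval k) :=
      (Nat.prime_iff_prime_int.mp hvprime).coprime_iff_not_dvd.mpr hnd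
    obtain ⟨x, y, hxy⟩ := hcop
    have h1' : (1 : 𝓞 F) ∈ v.asIdeal := by
      have e : (1 : 𝓞 F) = (x : 𝓞 F) * ((p : ℤ) : 𝓞 F) + (y : 𝓞 F) * ((m.eval k : ℤ) : 𝓞 F) := by
        rw [← Int.cast_mul, ← Int.cast_mul, ← Int.cast_add, hxy, Int.cast_one]
      rw [e]
      exact v.asIdeal.add_mem (v.asIdeal.mul_mem_left _ hpv) (v.asIdeal.mul_mem_left _ h1)
    exact v.isPrime.ne_top ((Ideal.eq_top_iff_one _).mpr h1')
  · -- `c(k)` is not a square modulo `p`
    rintro ⟨u, hu⟩
    obtain ⟨u', rfl⟩ := ZMod.intCast_surjective u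
    have hdvd : (p : ℤ) ∣ c.eval k - u' ^ 2 := by
      have e : ((u' ^ 2 : ℤ) : ZMod p) = ((c.eval k : ℤ) : ZMod p) := by
        rw [hu]; push_cast; ring
      exact (ZMod.intCast_eq_intCast_iff_dvd_sub _ _ _).mp e
    apply hvnon
    refine ⟨(u' : 𝓞 F), ?_⟩
    obtain ⟨e, he⟩ := hdvd
    have h2 : ((c.eval k : ℤ) : 𝓞 F) - (u' : 𝓞 F) ^ 2 ∈ v.asIdeal := by
      have : ((c.eval k : ℤ) : 𝓞 F) - (u' : 𝓞 F) ^ 2 = ((p : ℤ) : 𝓞 F) * (e : 𝓞 F) := by
        rw [← Int.cast_pow, ← Int.cast_sub, he, Int.cast_mul]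
      rw [this]
      exact v.asIdeal.mul_mem_right _ hpv
    have h3 := v.asIdeal.add_mem (hcong c) h2
    have e3 : aeval Θ c - ((c.eval k : ℤ) : 𝓞 F) + (((c.eval k : ℤ) : 𝓞 F) - (u' : 𝓞 F) ^ 2) =
        β - (u' : 𝓞 F) ^ 2 := by
      rw [hβdef]; ring
    rw [e3] at h3
    exact h3

end Fermat.Agent.S52.Irr.NonResidue
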