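import Fermat.Agent.S52.Runge
import Fermat.Agent.S52.Fam.Homog

/-!
# S52, (Irr3): wiring the Runge step to the family

`polyA c4 c6 N`, `polyB c4 c6 N` : the integer polynomials `k ↦ famC4h c4 c6 k N`,
`k ↦ famC6h c4 c6 k N`.
-/

set_option autoImplicit false

namespace Fermat.Agent.S52.Irr

open Polynomial
open Fermat.Agent.S52.Fam

/-- the polynomial `k ↦ famC4h c4 c6 k N` -/
noncomputable def polyA {R : Type*} [CommRing R] (c4 c6 N : R) : R[X] :=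
  famC4h (C c4) (C c6) X (C N)

/-- the polynomial `k ↦ famC6h c4 c6 k N` -/
noncomputable def polyB {R : Type*} [CommRing R] (c4 c6 N : R) : R[X] :=
  famC6h (C c4) (C c6) X (C N)

section Basic

variable {R : Type*} [CommRing R] (c4 c6 N : R)

theorem polyA_eval (k : R) : (polyA c4 c6 N).eval k = famC4h c4 c6 k N := by
  have h := map_famC4h (evalRingHom k) (C c4) (C c6) X (C N)
  simpa [polyA] using h

theorem polyB_eval (k : R) : (polyB c4 c6 N).eval k = famC6h c4 c6 k N := by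
  have h := map_famC6h (evalRingHom k) (C c4) (C c6) X (C N)
  simpa [polyB] using h

theorem polyA_map {S : Type*} [CommRing S] (φ : R →+* S) :
    (polyA c4 c6 N).map φ = polyA (φ c4) (φ c6) (φ N) := by
  have h := map_famC4h (mapRingHom φ) (C c4) (C c6) X (C N)
  simpa [polyA] using h

theorem polyB_map {S : Type*} [CommRing S] (φ : R →+* S) :
    (polyB c4 c6 N).map φ = polyB (φ c4) (φ c6) (φ N) := by
  have h := map_famC6h (mapRingHom φ) (C c4) (C c6) X (C N)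
  simpa [polyB] using h

theorem natDegree_famC4hr_le : (famC4hr (C c4) (C c6) X (C N) : R[X]).natDegree ≤ 19 := by
  simp only [famC4hr, aC4_1, aC4_2, aC4_3, aC4_4, aC4_5, aC4_6, aC4_7, aC4_8, aC4_9, aC4_10,
    aC4_11, aC4_12, aC4_13, aC4_14, aC4_15, aC4_16, aC4_17, aC4_18, aC4_19, aC4_20]
  compute_degree

theorem natDegree_famC6hr_le : (famC6hr (C c4) (C c6) X (C N) : R[X]).natDegree ≤ 29 := by
  simp only [famC6hr, aC6_1, aC6_2, aC6_3, aC6_4, aC6_5, aC6_6, aC6_7, aC6_8, aC6_9, aC6_10,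
    aC6_11, aC6_12, aC6_13, aC6_14, aC6_15, aC6_16, aC6_17, aC6_18, aC6_19, aC6_20, aC6_21,
    aC6_22, aC6_23, aC6_24, aC6_25, aC6_26, aC6_27, aC6_28, aC6_29, aC6_30]
  compute_degree

theorem polyA_eq : polyA c4 c6 N = C c4 * X ^ 20 + C N * famC4hr (C c4) (C c6) X (C N) := by
  rw [polyA, famC4h_eq]

theorem polyB_eq : polyB c4 c6 N = C c6 * X ^ 30 + C N * famC6hr (C c4) (C c6) X (C N) := by
  rw [polyB, famC6h_eq]

theorem natDegree_polyA_le : (polyA c4 c6 N).natDegree ≤ 20 := by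
  rw [polyA_eq]
  refine (natDegree_add_le _ _).trans (max_le ?_ ?_)
  · exact natDegree_C_mul_X_pow_le _ _
  · exact (natDegree_C_mul_le _ _).trans ((natDegree_famC4hr_le c4 c6 N).trans (by norm_num))

theorem natDegree_polyB_le : (polyB c4 c6 N).natDegree ≤ 30 := by
  rw [polyB_eq]
  refine (natDegree_add_le _ _).trans (max_le ?_ ?_)
  · exact natDegree_C_mul_X_pow_le _ _
  · exact (natDegree_C_mul_le _ _).trans ((natDegree_famC6hr_le c4 c6 N).trans (by norm_num))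

theorem coeff_polyA : (polyA c4 c6 N).coeff 20 = c4 := by
  rw [polyA_eq, coeff_add, coeff_C_mul_X_pow, coeff_C_mul,
    coeff_eq_zero_of_natDegree_lt (lt_of_le_of_lt (natDegree_famC4hr_le c4 c6 N) (by norm_num))]
  simp

theorem coeff_polyB : (polyB c4 c6 N).coeff 30 = c6 := by
  rw [polyB_eq, coeff_add, coeff_C_mul_X_pow, coeff_C_mul,
    coeff_eq_zero_of_natDegree_lt (lt_of_le_of_lt (natDegree_famC6hr_le c4 c6 N) (by norm_num))]
  simp

end Basic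

/-- the quartic has only simple roots when `c4^3 - c6^2 ≠ 0` -/
theorem simple_root (a b z : ℚ) (hΔ : a ^ 3 - b ^ 2 ≠ 0)
    (hz : z ^ 4 - 6 * a * z ^ 2 - 8 * b * z - 3 * a ^ 2 = 0) :
    z ^ 3 - 3 * a * z - 2 * b ≠ 0 := by
  intro hg
  have hh : a * z ^ 2 + 2 * b * z + a ^ 2 = 0 := by
    linear_combination (1 / 3 : ℚ) * z * hg - (1 / 3 : ℚ) * hz
  have hz0 : (a ^ 3 - b ^ 2) * z = 0 := by
    linear_combination (-1 / 4 : ℚ) * a ^ 2 * hg + (1 / 4 : ℚ) * (a * z - 2 * b) * hh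
  have hz1 : z = 0 := (mul_eq_zero.mp hz0).resolve_left hΔ
  subst hz1
  have hb : b = 0 := by linear_combination (-1 / 2 : ℚ) * hg
  have ha : a = 0 := by
    have : a ^ 2 = 0 := by linear_combination (-1 / 3 : ℚ) * hz
    exact pow_eq_zero_iff (two_ne_zero) |>.mp this
  exact hΔ (by rw [ha, hb]; ring)

/-- **Wiring of the Runge step**: if the generic quartic of the family is irreducible over
`ℚ[k]` and the base quartic has an integer root, then for all large `k` the quartic of the member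
`(k, N)` has no integer root. -/
theorem irr_of_irreducible (c4 c6 z₀ N : ℤ) (hΔ : c4 ^ 3 - c6 ^ 2 ≠ 0)
    (hz : z₀ ^ 4 - 6 * c4 * z₀ ^ 2 - 8 * c6 * z₀ - 3 * c4 ^ 2 = 0)
    (hirr : Irreducible (X ^ 4 - C (6 * polyA (c4 : ℚ) (c6 : ℚ) (N : ℚ)) * X ^ 2
      - C (8 * polyB (c4 : ℚ) (c6 : ℚ) (N : ℚ)) * X
      - C (3 * polyA (c4 : ℚ) (c6 : ℚ) (N : ℚ) ^ 2) : (ℚ[X])[X])) :
    ∃ k₀ : ℤ, ∀ k : ℤ, k₀ ≤ k → ∀ z : ℤ,
      z ^ 4 - 6 * famC4h c4 c6 k N * z ^ 2 - 8 * famC6h c4 c6 k N * z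
        - 3 * famC4h c4 c6 k N ^ 2 ≠ 0 := by
  set q2 : ℤ[X] := C (-6) * polyA c4 c6 N with hq2
  set q1 : ℤ[X] := C (-8) * polyB c4 c6 N with hq1
  set q0 : ℤ[X] := C (-3) * polyA c4 c6 N ^ 2 with hq0
  have h2 : q2.natDegree ≤ 20 := (natDegree_C_mul_le _ _).trans (natDegree_polyA_le c4 c6 N)
  have h1 : q1.natDegree ≤ 30 := (natDegree_C_mul_le _ _).trans (natDegree_polyB_le c4 c6 N)
  have h0 : q0.natDegree ≤ 40 := by
    refine (natDegree_C_mul_le _ _).trans ?_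
    refine natDegree_pow_le.trans ?_
    have := natDegree_polyA_le c4 c6 N
    omega
  have c2 : q2.coeff 20 = -6 * c4 := by rw [hq2, coeff_C_mul, coeff_polyA]
  have c1 : q1.coeff 30 = -8 * c6 := by rw [hq1, coeff_C_mul, coeff_polyB]
  have c0 : q0.coeff 40 = -3 * c4 ^ 2 := by
    rw [hq0, coeff_C_mul]
    have := coeff_pow_of_natDegree_le (m := 2) (natDegree_polyA_le c4 c6 N)
    rw [show (40 : ℕ) = 2 * 20 by norm_num, this, coeff_polyA]
  have m2 : q2.map (Int.castRingHom ℚ) = -6 * polyA (c4 : ℚ) (c6 : ℚ) (N : ℚ) := by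
    rw [hq2, Polynomial.map_mul, polyA_map]; simp
  have m1 : q1.map (Int.castRingHom ℚ) = -8 * polyB (c4 : ℚ) (c6 : ℚ) (N : ℚ) := by
    rw [hq1, Polynomial.map_mul, polyB_map]; simp
  have m0 : q0.map (Int.castRingHom ℚ) = -3 * polyA (c4 : ℚ) (c6 : ℚ) (N : ℚ) ^ 2 := by
    rw [hq0, Polynomial.map_mul, Polynomial.map_pow, polyA_map]; simp
  have hzq : (z₀ : ℚ) ^ 4 - 6 * (c4 : ℚ) * (z₀ : ℚ) ^ 2 - 8 * (c6 : ℚ) * (z₀ : ℚ)
      - 3 * (c4 : ℚ) ^ 2 = 0 := by exact_mod_cast hz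
  have hΔq : (c4 : ℚ) ^ 3 - (c6 : ℚ) ^ 2 ≠ 0 := by exact_mod_cast hΔ
  have hroot : (z₀ : ℚ) ^ 4 + (q2.coeff 20 : ℚ) * (z₀ : ℚ) ^ 2 + (q1.coeff 30 : ℚ) * (z₀ : ℚ)
      + (q0.coeff 40 : ℚ) = 0 := by
    rw [c2, c1, c0]; push_cast; linear_combination hzq
  have hsimple : 4 * (z₀ : ℚ) ^ 3 + 2 * (q2.coeff 20 : ℚ) * (z₀ : ℚ) + (q1.coeff 30 : ℚ) ≠ 0 := by
    rw [c2, c1]; push_cast
    intro h
    exact simple_root (c4 : ℚ) (c6 : ℚ) (z₀ : ℚ) hΔq hzq (by linear_combination (1 / 4 : ℚ) * h)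
  have hirr' : Irreducible (X ^ 4 + C (q2.map (Int.castRingHom ℚ)) * X ^ 2
      + C (q1.map (Int.castRingHom ℚ)) * X + C (q0.map (Int.castRingHom ℚ)) : (ℚ[X])[X]) := by
    rw [m2, m1, m0]
    convert hirr using 1
    simp only [map_mul, map_neg, map_pow]
    ring
  obtain ⟨k0, hk0⟩ := Fermat.Agent.S52.Runge.runge4 q2 q1 q0 h2 h1 h0 (z₀ : ℚ) hroot hsimple hirr'
  refine ⟨(k0 : ℤ), fun k hk z hzero => ?_⟩
  have hk' : (0 : ℤ) ≤ k := le_trans (Int.natCast_nonneg k0) hk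
  obtain ⟨n, rfl⟩ := Int.eq_ofNat_of_zero_le hk'
  have hn : k0 ≤ n := by exact_mod_cast hk
  refine hk0 n hn z ?_
  rw [hq2, hq1, hq0, eval_mul, eval_mul, eval_mul, eval_pow, eval_C, eval_C, eval_C, polyA_eval,
    polyB_eval]
  linear_combination hzero

end Fermat.Agent.S52.Irr
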